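import Fermat.Agent.IntStr.Theta

/-!
# Conjugates of modular forms on `Γ₀(N)` over level one

* `exists_monic_relation`: integrality of a form on `Γ₀(N)` over level one forms.
* `exists_lagrange`: any form on `Γ₀(N)` is a level-one-rational combination of powers of `θ_N`.
-/

set_option autoImplicit false

open UpperHalfPlane ModularForm MatrixGroups CongruenceSubgroup Matrix.SpecialLinearGroup

open scoped Pointwise Manifold

noncomputable section

namespace Fermat.Agent.IntStr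

/-! ### recognising level one forms -/

theorem isL1_of {k : ℤ} {f : ℍ → ℂ} (hinv : ∀ h ∈ (𝒮ℒ : Subgroup (GL (Fin 2) ℝ)), f ∣[k] h = f)
    (hol : MDiff f) (hb : IsBoundedAtImInfty f) : IsL1 k f :=
  ⟨{ toFun := f
     slash_action_eq' := hinv
     holo' := hol
     bdd_at_cusps' := fun {c} hc => by
       rw [OnePoint.isBoundedAt_iff_forall_SL2Z hc]
       intro γ _
       rw [show f ∣[k] γ = f from hinv _ ⟨γ, rfl⟩]
       exact hb }, rfl⟩

theorem isL1Cusp_of {k : ℤ} {f : ℍ → ℂ}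
    (hinv : ∀ h ∈ (𝒮ℒ : Subgroup (GL (Fin 2) ℝ)), f ∣[k] h = f)
    (hol : MDiff f) (hb : IsZeroAtImInfty f) : IsL1Cusp k f :=
  ⟨{ toFun := f
     slash_action_eq' := hinv
     holo' := hol
     zero_at_cusps' := fun {c} hc => by
       rw [OnePoint.isZeroAt_iff_forall_SL2Z hc]
       intro γ _
       rw [show f ∣[k] γ = f from hinv _ ⟨γ, rfl⟩]
       exact hb }, rfl⟩

section family

variable {ι : Type} [MulAction (𝒮ℒ : Subgroup (GL (Fin 2) ℝ)) ι]

/-- A family of holomorphic functions on `ℍ`, bounded at `i∞`, permuted by the weight `w` slash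
action of `SL₂(ℤ)`. -/
structure ConjFam (w : ℤ) (F : ι → ℍ → ℂ) : Prop where
  slash : ∀ (h : (𝒮ℒ : Subgroup (GL (Fin 2) ℝ))) (q : ι), F q ∣[w] (h : GL (Fin 2) ℝ) = F (h⁻¹ • q)
  holo : ∀ q, MDiff (F q)
  bdd : ∀ q, IsBoundedAtImInfty (F q)

theorem det_eq_one_of_mem_SL {h : GL (Fin 2) ℝ} (hh : h ∈ (𝒮ℒ : Subgroup (GL (Fin 2) ℝ))) :
    h.det.val = 1 := by
  obtain ⟨g, rfl⟩ := hh
  simp

theorem ConjFam.mul {w w' : ℤ} {F G : ι → ℍ → ℂ} (hF : ConjFam w F) (hG : ConjFam w' G) :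
    ConjFam (w + w') (fun q => F q * G q) where
  slash h q := by
    rw [ModularForm.mul_slash, hF.slash, hG.slash]
    have : ((h : GL (Fin 2) ℝ).det : ℝ) = 1 := det_eq_one_of_mem_SL h.2
    rw [this]
    simp
  holo q := (hF.holo q).mul (hG.holo q)
  bdd q := (hF.bdd q).mul (hG.bdd q)

theorem ConjFam.of_isL1 {w : ℤ} {f : ℍ → ℂ} (hf : IsL1 w f) : ConjFam (ι := ι) w (fun _ => f) where
  slash h q := by
    obtain ⟨F, rfl⟩ := hf
    exact F.slash_action_eq' _ h.2
  holo q := by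
    obtain ⟨F, rfl⟩ := hf
    exact F.holo'
  bdd q := by
    obtain ⟨F, rfl⟩ := hf
    exact ModularFormClass.bdd_at_infty F

theorem ConjFam.cast {w w' : ℤ} {F : ι → ℍ → ℂ} (hF : ConjFam w F) (h : w = w') : ConjFam w' F :=
  h ▸ hF

theorem ConjFam.pow {w : ℤ} {F : ι → ℍ → ℂ} (hF : ConjFam w F) (n : ℕ) :
    ConjFam (n * w) (fun q => F q ^ n) := by
  induction n with
  | zero =>
    have := ConjFam.of_isL1 (ι := ι) IsL1.one
    simpa using this
  | succ n ih =>
    have := ih.mul hF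
    refine (ConjFam.cast (by simpa [pow_succ] using this) (by push_cast; ring))

theorem ConjFam.sum_isL1 [Fintype ι] {w : ℤ} {F : ι → ℍ → ℂ} (hF : ConjFam w F) :
    IsL1 w (∑ q, F q) := by
  refine isL1_of ?_ ?_ ?_
  · intro h hh
    rw [SlashAction.sum_slash]
    simp only [hF.slash ⟨h, hh⟩]
    exact Equiv.sum_comp (MulAction.toPerm ((⟨h, hh⟩ : (𝒮ℒ : Subgroup (GL (Fin 2) ℝ)))⁻¹)) F
  · refine MDifferentiable.sum ?_
    intro q _
    exact hF.holo q
  · rw [IsBoundedAtImInfty, Filter.BoundedAtFilter, Finset.sum_fn]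
    exact Asymptotics.IsBigO.fun_sum fun q _ => hF.bdd q

/-- elementary symmetric functions of a conjugate family -/
def esymmFam [Fintype ι] (F : ι → ℍ → ℂ) (i : ℕ) : ℍ → ℂ :=
  ∑ t ∈ Finset.powersetCard i (Finset.univ : Finset ι), ∏ q ∈ t, F q

theorem ConjFam.esymm_slash [Fintype ι] {w : ℤ} {F : ι → ℍ → ℂ} (hF : ConjFam w F) (i : ℕ)
    (h : GL (Fin 2) ℝ) (hh : h ∈ (𝒮ℒ : Subgroup (GL (Fin 2) ℝ))) :
    esymmFam F i ∣[w * i] h = esymmFam F i := by
  classical
  unfold esymmFam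
  rw [SlashAction.sum_slash]
  set e : ι ≃ ι := MulAction.toPerm ((⟨h, hh⟩ : (𝒮ℒ : Subgroup (GL (Fin 2) ℝ)))⁻¹) with he
  have h1 : ∀ t ∈ Finset.powersetCard i (Finset.univ : Finset ι),
      (∏ q ∈ t, F q) ∣[w * i] h = ∏ q ∈ t.map e.toEmbedding, F q := by
    intro t ht
    have hc : t.card = i := (Finset.mem_powersetCard.mp ht).2
    have h2 := ModularForm.prod_slash (k := w) (g := h) (f := F) (s := t)
    rw [hc, det_eq_one_of_mem_SL hh] at h2
    rw [h2, Finset.prod_map]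
    simp only [abs_one, one_zpow, one_smul]
    exact Finset.prod_congr rfl fun q _ => hF.slash ⟨h, hh⟩ q
  rw [Finset.sum_congr rfl h1]
  have h3 := Finset.sum_map (Finset.powersetCard i (Finset.univ : Finset ι))
    (Finset.mapEmbedding e.toEmbedding).toEmbedding (fun t => ∏ q ∈ t, F q)
  rw [← Finset.powersetCard_map, Finset.map_univ_equiv] at h3
  rw [h3]
  rfl

theorem ConjFam.esymm_isL1 [Fintype ι] {w : ℤ} {F : ι → ℍ → ℂ} (hF : ConjFam w F) (i : ℕ) :
    IsL1 (w * i) (esymmFam F i) := by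
  classical
  refine isL1_of (hF.esymm_slash i) ?_ ?_
  · refine MDifferentiable.sum ?_
    intro t _
    refine MDifferentiable.prod ?_
    intro q _
    exact hF.holo q
  · rw [IsBoundedAtImInfty, Filter.BoundedAtFilter, esymmFam, Finset.sum_fn]
    refine Asymptotics.IsBigO.fun_sum fun t _ => ?_
    rw [show (1 : ℍ → ℝ) = (fun x ↦ ∏ (i ∈ t), 1) by ext; simp, Finset.prod_fn]
    exact .finsetProd fun q _ => hF.bdd q

theorem ConjFam.esymm_isL1Cusp [Fintype ι] {w : ℤ} {F : ι → ℍ → ℂ} (hF : ConjFam w F)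
    (hz : ∀ q, IsZeroAtImInfty (F q)) {i : ℕ} (hi : 0 < i) :
    IsL1Cusp (w * i) (esymmFam F i) := by
  classical
  refine isL1Cusp_of (hF.esymm_slash i) ?_ ?_
  · refine MDifferentiable.sum ?_
    intro t _
    refine MDifferentiable.prod ?_
    intro q _
    exact hF.holo q
  · rw [IsZeroAtImInfty, Filter.ZeroAtFilter, esymmFam, Finset.sum_fn]
    rw [show (0 : ℂ) = ∑ t ∈ Finset.powersetCard i (Finset.univ : Finset ι), 0 by simp]
    refine tendsto_finsetSum _ fun t ht => ?_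
    have hc : t.card = i := (Finset.mem_powersetCard.mp ht).2
    have hne : t.Nonempty := Finset.card_pos.mp (hc ▸ hi)
    have := tendsto_finsetProd t (f := F) (a := fun _ => (0 : ℂ)) fun q _ => hz q
    rw [Finset.prod_const, zero_pow (by omega)] at this
    rw [Finset.prod_fn]
    exact this

omit [MulAction (𝒮ℒ : Subgroup (GL (Fin 2) ℝ)) ι] in
theorem ConjFam.relation [Fintype ι] (F : ι → ℍ → ℂ) (q₀ : ι) :
    (F q₀) ^ (Fintype.card ι) + ∑ i ∈ Finset.Icc 1 (Fintype.card ι),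
      ((-1) ^ i * esymmFam F i) * (F q₀) ^ (Fintype.card ι - i) = 0 := by
  classical
  have h := Multiset.prod_X_sub_X_eq_sum_esymm ((Finset.univ : Finset ι).val.map F)
  have h2 := congrArg (Polynomial.eval (F q₀)) h
  rw [Multiset.map_map] at h2
  simp only [Multiset.card_map, Finset.card_val, Finset.card_univ,
    Polynomial.eval_finsetSum, Polynomial.eval_mul, Polynomial.eval_pow, Polynomial.eval_neg,
    Polynomial.eval_one, Polynomial.eval_C, Polynomial.eval_X, Finset.esymm_map_val] at h2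
  have h3 : Polynomial.eval (F q₀) ((Multiset.map ((fun t => Polynomial.X - Polynomial.C t) ∘ F)
      (Finset.univ : Finset ι).val).prod) = 0 := by
    change Polynomial.eval (F q₀) (∏ q, (Polynomial.X - Polynomial.C (F q))) = 0
    rw [Polynomial.eval_prod]
    exact Finset.prod_eq_zero (Finset.mem_univ q₀) (by simp)
  rw [h3, Finset.sum_range_succ'] at h2
  have h4 : Finset.Icc 1 (Fintype.card ι) = Finset.Ico 1 (Fintype.card ι + 1) := by
    ext; simp [Finset.mem_Icc, Finset.mem_Ico]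
  rw [h4, Finset.sum_Ico_eq_sum_range]
  simp only [Finset.powersetCard_zero, Finset.sum_singleton, Finset.prod_empty, pow_zero,
    one_mul, Nat.sub_zero] at h2
  rw [add_comm] at h2
  rw [Nat.add_sub_cancel]
  refine Eq.trans ?_ h2.symm
  congr 1
  refine Finset.sum_congr rfl fun i _ => ?_
  rw [add_comm 1 i, mul_assoc]
  rfl

end family

/-! ### conjugates of forms on `Γ₀(N)` -/

open SlashInvariantForm

/-- The coset space `SL₂(ℤ) / Γ₀(N)`. -/
abbrev Cos (N : ℕ) : Type :=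
  (𝒮ℒ : Subgroup (GL (Fin 2) ℝ)) ⧸ ((Gamma0 N : Subgroup (GL (Fin 2) ℝ)).subgroupOf 𝒮ℒ)

instance (N : ℕ) [NeZero N] : Finite (Cos N) := by
  unfold Cos
  infer_instance

instance (N : ℕ) [NeZero N] : Fintype (Cos N) := Fintype.ofFinite _

/-- the trivial coset -/
def cos1 (N : ℕ) : Cos N := QuotientGroup.mk 1

variable {N : ℕ} [NeZero N]

omit [NeZero N] in
theorem quotientFunc_cos1 {k : ℤ} {F : Type*} [FunLike F ℍ ℂ]
    [SlashInvariantFormClass F (Gamma0 N : Subgroup (GL (Fin 2) ℝ)) k] (f : F) :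
    quotientFunc f (cos1 N) = (f : ℍ → ℂ) := by
  have := quotientFunc_mk (𝒢 := (Gamma0 N : Subgroup (GL (Fin 2) ℝ))) f
    (1 : (𝒮ℒ : Subgroup (GL (Fin 2) ℝ)))
  refine this.trans ?_
  simp

omit [NeZero N] in
theorem quotientFunc_mk_SL {k : ℤ} {F : Type*} [FunLike F ℍ ℂ]
    [SlashInvariantFormClass F (Gamma0 N : Subgroup (GL (Fin 2) ℝ)) k] (f : F) (g : SL(2, ℤ)) :
    quotientFunc f (QuotientGroup.mk ⟨mapGL ℝ g, ⟨g, rfl⟩⟩ : Cos N) =
      (f : ℍ → ℂ) ∣[k] (g⁻¹ : SL(2, ℤ)) := by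
  change (f : ℍ → ℂ) ∣[k] (mapGL ℝ g)⁻¹ = (f : ℍ → ℂ) ∣[k] (mapGL ℝ g⁻¹)
  rw [map_inv]

theorem conjFam_quotientFunc {k : ℤ} {F : Type*} [FunLike F ℍ ℂ]
    [ModularFormClass F (Gamma0 N : Subgroup (GL (Fin 2) ℝ)) k] (f : F) :
    ConjFam k (fun q : Cos N => quotientFunc f q) where
  slash h q := quotientFunc_smul f h.2 q
  holo := Quotient.forall.mpr fun ⟨r, hr⟩ => (ModularForm.translate f r⁻¹).holo'
  bdd := Quotient.forall.mpr fun ⟨r, hr⟩ => by
    obtain ⟨g, rfl⟩ := hr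
    have := ModularFormClass.bdd_at_infty_slash f g⁻¹
    rw [← quotientFunc_mk_SL] at this
    exact this

theorem isZero_quotientFunc {k : ℤ} (f : CuspForm (Gamma0 N : Subgroup (GL (Fin 2) ℝ)) k)
    (q : Cos N) : IsZeroAtImInfty (quotientFunc f q) := by
  revert q
  refine Quotient.forall.mpr fun ⟨r, hr⟩ => ?_
  obtain ⟨g, rfl⟩ := hr
  have := CuspFormClass.zero_at_infty_slash f g⁻¹
  rw [← quotientFunc_mk_SL] at this
  exact this

theorem exists_monic_relation_mod {k : ℤ}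
    (f : ModularForm (Gamma0 N : Subgroup (GL (Fin 2) ℝ)) k) :
    ∃ (n : ℕ) (c : ℕ → ℍ → ℂ), 0 < n ∧ (∀ i ∈ Finset.Icc 1 n, IsL1 (k * i) (c i)) ∧
      (⇑f : ℍ → ℂ) ^ n + ∑ i ∈ Finset.Icc 1 n, c i * (⇑f : ℍ → ℂ) ^ (n - i) = 0 := by
  have hF := conjFam_quotientFunc f
  refine ⟨Fintype.card (Cos N),
    fun i => (-1) ^ i * esymmFam (fun q : Cos N => quotientFunc f q) i,
    Fintype.card_pos_iff.mpr ⟨cos1 N⟩, fun i _ => ?_, ?_⟩
  · have h := hF.esymm_isL1 i
    rcases neg_one_pow_eq_or (ℍ → ℂ) i with h1 | h1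
    · simp only [h1, one_mul]; exact h
    · simp only [h1, neg_one_mul]; exact h.neg
  · have := ConjFam.relation (fun q : Cos N => quotientFunc f q) (cos1 N)
    rw [quotientFunc_cos1] at this
    exact this

theorem exists_monic_relation {k : ℤ}
    (f : CuspForm (Gamma0 N : Subgroup (GL (Fin 2) ℝ)) k) :
    ∃ (n : ℕ) (c : ℕ → ℍ → ℂ), 0 < n ∧ (∀ i ∈ Finset.Icc 1 n, IsL1Cusp (k * i) (c i)) ∧
      (⇑f : ℍ → ℂ) ^ n + ∑ i ∈ Finset.Icc 1 n, c i * (⇑f : ℍ → ℂ) ^ (n - i) = 0 := by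
  have hF := conjFam_quotientFunc f
  refine ⟨Fintype.card (Cos N),
    fun i => (-1) ^ i * esymmFam (fun q : Cos N => quotientFunc f q) i,
    Fintype.card_pos_iff.mpr ⟨cos1 N⟩, fun i hi => ?_, ?_⟩
  · have h := hF.esymm_isL1Cusp (isZero_quotientFunc f) (i := i)
      (by simp only [Finset.mem_Icc] at hi; omega)
    rcases neg_one_pow_eq_or (ℍ → ℂ) i with h1 | h1
    · simp only [h1, one_mul]; exact h
    · simp only [h1, neg_one_mul]
      simpa using h.smul (-1)
  · have := ConjFam.relation (fun q : Cos N => quotientFunc f q) (cos1 N)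
    rw [quotientFunc_cos1] at this
    exact this

end Fermat.Agent.IntStr
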