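import Mathlib
import Fermat.Prelude.Def_CuspForm_HeckeAlgebra
import Fermat.Prelude.Def_CuspForm_IntegralStructure
import Fermat.Prelude.Thm_CuspForm_intLattice_fg
import Fermat.Prelude.Thm_CuspForm_mem_intLattice_of_mem_heckeAlgebra
import Fermat.Prelude.Thm_ModularForm_sturm_bound_Gamma0

/-!
# The Hecke algebra is finite over `ℤ`, given an integral structure
-/

set_option autoImplicit false

open CongruenceSubgroup

noncomputable section

namespace Fermat.Agent.IntStr

/-- The Hecke algebra is a finite `ℤ`-module as soon as the space of cusp forms has an integral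
structure. -/
theorem moduleFinite_heckeAlgebra_of_integralStructure (N : ℕ) [NeZero N] (k : ℤ) (hk : 1 ≤ k)
    (S : Set ℕ) (h : CuspForm.HasIntegralStructure N k) :
    Module.Finite ℤ (CuspForm.heckeAlgebra N k S) := by
  let L := CuspForm.intLattice N k
  have hfin : Module.Finite ℤ L := Module.Finite.iff_fg.2 (CuspForm.intLattice_fg N k)
  have htf : Module.IsTorsionFree ℤ (CuspForm (Gamma0 N : Subgroup (GL (Fin 2) ℝ)) k) := by
    constructor
    intro n hn f g hfg
    have hn0 : (n : ℂ) ≠ 0 := by
      have : n ≠ 0 := by simpa using hn.ne_zero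
      exact_mod_cast this
    have h1 : (n : ℂ) • f = (n : ℂ) • g := by
      simpa [Int.cast_smul_eq_zsmul] using hfg
    exact smul_right_injective _ hn0 h1
  have htfL : Module.IsTorsionFree ℤ L := inferInstance
  have hfree : Module.Free ℤ L := inferInstance
  let φ : CuspForm.heckeAlgebra N k S →ₗ[ℤ] (L →ₗ[ℤ] L) :=
    { toFun := fun t =>
        { toFun := fun x => ⟨(t : Module.End ℂ _) x,
            CuspForm.mem_intLattice_of_mem_heckeAlgebra hk t.2 x.2⟩
          map_add' := fun x y => by ext1; simp
          map_smul' := fun c x => by ext1; simp }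
      map_add' := fun s t => by ext; simp
      map_smul' := fun c t => by ext; simp }
  have hφ : Function.Injective φ := by
    refine (injective_iff_map_eq_zero _).mpr fun t ht => ?_
    apply Subtype.ext
    apply LinearMap.ext_on (s := (L : Set (CuspForm (Gamma0 N : Subgroup (GL (Fin 2) ℝ)) k))) h
    intro x hx
    have := congrArg Subtype.val (LinearMap.congr_fun ht ⟨x, hx⟩)
    exact this
  exact Module.Finite.of_injective φ hφ

theorem moduleFinite_heckeAlgebra_of_nonpos (N : ℕ) [NeZero N] (k : ℤ) (hk : k ≤ 0)
    (S : Set ℕ) : Module.Finite ℤ (CuspForm.heckeAlgebra N k S) := by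
  have hsub : Subsingleton (CuspForm (Gamma0 N : Subgroup (GL (Fin 2) ℝ)) k) := by
    refine subsingleton_of_forall_eq 0 fun f => ?_
    have h1 : (ModularFormClass.modularForm f : ModularForm (Gamma0 N) k) = 0 := by
      refine ModularForm.sturm_bound_Gamma0 N _ fun n hn => ?_
      have h3 : (k * (Gamma0 N).index).toNat = 0 := by
        rw [Int.toNat_eq_zero]
        exact mul_nonpos_of_nonpos_of_nonneg hk (by positivity)
      rw [h3] at hn
      obtain rfl : n = 0 := by simpa using hn
      exact CuspFormClass.qExpansion_coeff_zero f one_pos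
        (CongruenceSubgroup.one_mem_strictPeriods_Gamma0 N)
    have h2 : (⇑f : UpperHalfPlane → ℂ) = 0 := by
      have := congrArg (fun F : ModularForm (Gamma0 N : Subgroup (GL (Fin 2) ℝ)) k =>
        (⇑F : UpperHalfPlane → ℂ)) h1
      exact this
    exact DFunLike.coe_injective h2
  have : Subsingleton (CuspForm.heckeAlgebra N k S) := by
    refine ⟨fun a b => Subtype.ext ?_⟩
    ext1 x
    exact Subsingleton.elim _ _
  exact inferInstance

end Fermat.Agent.IntStr
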