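import Fermat.Agent.IntStr.Conj

/-!
# Lagrange interpolation over level one
-/

set_option autoImplicit false

open UpperHalfPlane ModularForm MatrixGroups CongruenceSubgroup Matrix.SpecialLinearGroup
  SlashInvariantForm

open scoped Pointwise Manifold

noncomputable section

namespace Fermat.Agent.IntStr

theorem isL1_det {n : ℕ} {w : ℤ} (A : Matrix (Fin n) (Fin n) (ℍ → ℂ)) (h : ∀ i j, IsL1 w (A i j)) :
    IsL1 (n * w) A.det := by
  rw [Matrix.det_apply]
  refine IsL1.sum fun σ _ => ?_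
  have h1 := IsL1.prod (s := Finset.univ) (k := fun _ => w) (f := fun i => A (σ i) i)
    (fun i _ => h _ _)
  simp only [Finset.sum_const, Finset.card_univ, Fintype.card_fin, nsmul_eq_mul] at h1
  rcases Int.units_eq_one_or (Equiv.Perm.sign σ) with h2 | h2
  · rw [h2, one_smul]; exact h1
  · rw [h2]
    simpa using h1.neg

theorem isL1_adjugate {n : ℕ} {w : ℤ} (A : Matrix (Fin (n + 1)) (Fin (n + 1)) (ℍ → ℂ))
    (h : ∀ i j, IsL1 w (A i j)) (i j : Fin (n + 1)) : IsL1 (n * w) (A.adjugate i j) := by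
  rw [Matrix.adjugate_fin_succ_eq_det_submatrix]
  have h1 := isL1_det (A.submatrix j.succAbove i.succAbove) (fun a b => h _ _)
  rcases neg_one_pow_eq_or (ℍ → ℂ) (j + i : ℕ) with h2 | h2
  · rw [h2, one_mul]; exact h1
  · rw [h2, neg_one_mul]; exact h1.neg

theorem lagrange_matrix {m : ℕ} {R : Type*} [CommRing R] (M : Matrix (Fin m) (Fin m) R)
    (F : Fin m → R) :
    M.mulVec ((M.transpose * M).adjugate.mulVec (M.transpose.mulVec F)) =
      (M.transpose * M).det • F := by
  rw [Matrix.mulVec_mulVec, Matrix.mulVec_mulVec, Matrix.adjugate_mul_distrib]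
  have h1 : M * (M.adjugate * M.transpose.adjugate) * M.transpose =
      (M * M.adjugate) * (M.transpose.adjugate * M.transpose) := by
    simp only [Matrix.mul_assoc]
  rw [← Matrix.mul_assoc] at h1 ⊢
  rw [h1, Matrix.mul_adjugate, Matrix.adjugate_mul, Matrix.det_mul, smul_mul_smul_comm,
    Matrix.one_mul, Matrix.smul_mulVec, Matrix.one_mulVec, mul_comm]

/-! ### The stabiliser of `θ_N` -/

/-- Hermite normal form: for `g ∈ SL₂(ℤ)`, `diag(N,1) g = γ (A B; 0 D)`. -/
theorem exists_hermite (N : ℕ) [NeZero N] (g : SL(2, ℤ)) :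
    ∃ (γ : SL(2, ℤ)) (A D : ℕ) (B : ℤ) (hA : 0 < A) (hD : 0 < D), A * D = N ∧
      (A : ℤ) ∣ g 1 0 ∧
      heckeDiagMatrix N * (mapGL ℝ g) = mapGL ℝ γ *
        upperTriangularGL (A : ℝ) (B : ℝ) (D : ℝ) (by positivity) := by
  have hN : N ≠ 0 := NeZero.ne N
  have hdet : g 0 0 * g 1 1 - g 0 1 * g 1 0 = 1 := by
    have := g.det_coe
    rwa [Matrix.det_fin_two] at this
  set A : ℕ := Int.gcd (N * g 0 0) (g 1 0) with hAdef
  have hA1 : (A : ℤ) ∣ N * g 0 0 := Int.gcd_dvd_left ..
  have hA2 : (A : ℤ) ∣ g 1 0 := Int.gcd_dvd_right ..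
  have hAN : (A : ℤ) ∣ N := by
    have : (N : ℤ) = (N * g 0 0) * g 1 1 - (g 1 0) * (N * g 0 1) := by
      linear_combination -(N : ℤ) * hdet
    rw [this]
    exact dvd_sub (hA1.mul_right _) (hA2.mul_right _)
  have hApos : 0 < A := by
    rcases Nat.eq_zero_or_pos A with h | h
    · rw [h] at hAN
      simp only [Nat.cast_zero, zero_dvd_iff, Nat.cast_eq_zero] at hAN
      exact absurd hAN hN
    · exact h
  obtain ⟨D, hD⟩ : A ∣ N := by exact_mod_cast hAN
  have hDpos : 0 < D := by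
    rcases Nat.eq_zero_or_pos D with h | h
    · rw [h, mul_zero] at hD; exact absurd hD hN
    · exact h
  obtain ⟨r, hr⟩ := hA1
  obtain ⟨s, hs⟩ := hA2
  have hbez := Int.gcd_eq_gcd_ab (N * g 0 0) (g 1 0)
  set x := Int.gcdA (N * g 0 0) (g 1 0)
  set y := Int.gcdB (N * g 0 0) (g 1 0)
  rw [← hAdef] at hbez
  have hA0 : (A : ℤ) ≠ 0 := by exact_mod_cast hApos.ne'
  have hxy : r * x + s * y = 1 := by
    have : (A : ℤ) * (r * x + s * y) = A * 1 := by
      rw [mul_one]
      conv_rhs => rw [hbez]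
      rw [hr, hs]; ring
    exact mul_left_cancel₀ hA0 this
  have hDeq : (D : ℤ) = r * g 1 1 - s * (N * g 0 1) := by
    have : (A : ℤ) * D = A * (r * g 1 1 - s * (N * g 0 1)) := by
      have h1 : (A : ℤ) * D = N := by exact_mod_cast hD.symm
      rw [h1]
      have h2 : (A : ℤ) * (r * g 1 1 - s * (N * g 0 1)) =
        (A * r) * g 1 1 - (A * s) * (N * g 0 1) := by ring
      rw [h2, ← hr, ← hs]
      linear_combination -(N : ℤ) * hdet
    exact mul_left_cancel₀ hA0 this
  set B : ℤ := x * (N * g 0 1) + y * g 1 1 with hB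
  obtain ⟨γ, h00, h01, h10, h11⟩ : ∃ γ : SL(2, ℤ), γ 0 0 = r ∧ γ 0 1 = -y ∧ γ 1 0 = s ∧
      γ 1 1 = x :=
    ⟨⟨!![r, -y; s, x], by rw [Matrix.det_fin_two_of]; linear_combination hxy⟩,
      rfl, rfl, rfl, rfl⟩
  refine ⟨γ, A, D, B, hApos, hDpos, hD.symm, ⟨s, hs⟩, ?_⟩
  apply Units.ext
  rw [Units.val_mul, Units.val_mul]
  have e1 : (N : ℝ) * g 0 0 = A * r := by exact_mod_cast hr
  have e2 : ((g 1 0 : ℤ) : ℝ) = A * s := by exact_mod_cast hs
  have e3 : (D : ℝ) = r * g 1 1 - s * (N * g 0 1) := by exact_mod_cast hDeq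
  have e4 : (B : ℝ) = x * (N * g 0 1) + y * g 1 1 := by exact_mod_cast hB
  have e5 : (r : ℝ) * x + s * y = 1 := by exact_mod_cast hxy
  ext i j
  rw [Matrix.mul_apply, Matrix.mul_apply, Fin.sum_univ_two, Fin.sum_univ_two,
    val_heckeDiagMatrix hN, val_upperTriangularGL]
  simp only [mapGL_apply']
  fin_cases i <;> fin_cases j
  · simp [e1, h00, mul_comm]
  · simp only [Fin.zero_eta, Fin.mk_one, Matrix.cons_val', Matrix.cons_val_zero,
      Matrix.cons_val_one, Matrix.of_apply, Matrix.cons_val_fin_one, zero_mul, add_zero, h00, h01]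
    push_cast
    rw [e3, e4]
    linear_combination (-(N : ℝ) * g 0 1) * e5
  · simp [e2, h10, mul_comm]
  · simp only [Fin.mk_one, Matrix.cons_val', Matrix.cons_val_zero,
      Matrix.cons_val_one, Matrix.of_apply, Matrix.cons_val_fin_one, zero_mul, zero_add, one_mul,
      h10, h11]
    push_cast
    rw [e3, e4]
    linear_combination (-(g 1 1 : ℝ)) * e5

theorem im_upperTriangular_smul {a b d : ℝ} (ha : 0 < a) (hd : 0 < d) (τ : ℍ) :
    (upperTriangularGL a b d (by positivity) • τ : ℍ).im = a * τ.im / d := by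
  have hdet : 0 < (upperTriangularGL a b d (by positivity)).det.val := by
    rw [Matrix.GeneralLinearGroup.val_det_apply, val_upperTriangularGL, Matrix.det_fin_two_of]
    nlinarith [mul_pos ha hd]
  rw [← UpperHalfPlane.coe_im, UpperHalfPlane.coe_smul_of_det_pos hdet]
  simp only [UpperHalfPlane.num, UpperHalfPlane.denom, val_upperTriangularGL, Matrix.of_apply,
    Matrix.cons_val', Matrix.cons_val_zero, Matrix.cons_val_one, Matrix.cons_val_fin_one,
    Complex.ofReal_zero, zero_mul, zero_add]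
  rw [Complex.div_ofReal_im]
  simp

theorem norm_slash_upperTriangular {a b d : ℝ} (ha : 0 < a) (hd : 0 < d) (k : ℤ) (f : ℍ → ℂ)
    (τ : ℍ) : ‖(f ∣[k] (upperTriangularGL a b d (by positivity))) τ‖ =
      ‖f (upperTriangularGL a b d (by positivity) • τ)‖ * ((a * d) ^ (k - 1) * d ^ (-k)) := by
  have hdet : (upperTriangularGL a b d (by positivity)).det.val = a * d := by
    rw [Matrix.GeneralLinearGroup.val_det_apply, val_upperTriangularGL, Matrix.det_fin_two_of]
    ring
  have hpos : 0 < a * d := mul_pos ha hd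
  rw [ModularForm.slash_apply, UpperHalfPlane.σ, if_pos (by rw [hdet]; exact hpos), hdet]
  simp only [UpperHalfPlane.denom, val_upperTriangularGL, Matrix.of_apply,
    Matrix.cons_val', Matrix.cons_val_zero, Matrix.cons_val_one, Matrix.cons_val_fin_one,
    Complex.ofReal_zero, zero_mul, zero_add]
  rw [norm_mul, norm_mul, norm_zpow, norm_zpow, abs_of_pos hpos, Complex.norm_real,
    Complex.norm_real, Real.norm_of_nonneg hpos.le, Real.norm_of_nonneg hd.le, mul_assoc]
  rfl

theorem delta'_lower : ∃ c > 0, ∃ Y : ℝ, ∀ z : ℍ, Y ≤ z.im →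
    Real.exp (-2 * Real.pi * z.im) ≤ c * ‖delta' z‖ := by
  obtain ⟨c, hc⟩ := exp_isBigO_discriminant.bound
  rw [Filter.eventually_iff, UpperHalfPlane.atImInfty_mem] at hc
  obtain ⟨Y, hY⟩ := hc
  refine ⟨|c| + 1, by positivity, Y, fun z hz => ?_⟩
  have := hY z hz
  simp only [Set.mem_ofPred_eq, Real.norm_eq_abs, Real.abs_exp] at this
  refine this.trans ?_
  rw [delta'_apply, norm_mul]
  have h1 : c * ‖ModularForm.discriminant z‖ ≤ (|c| + 1) * ‖ModularForm.discriminant z‖ := by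
    gcongr
    exact (le_abs_self c).trans (by linarith)
  refine h1.trans ?_
  gcongr
  refine le_mul_of_one_le_left (norm_nonneg _) ?_
  norm_num

theorem delta'_upper : ∃ c > 0, ∃ Y : ℝ, ∀ z : ℍ, Y ≤ z.im →
    ‖delta' z‖ ≤ c * Real.exp (-2 * Real.pi * z.im) := by
  obtain ⟨c, hc⟩ := (CuspFormClass.exp_decay_atImInfty (h := 1) delta' one_pos
    one_mem_strictPeriods_SL).bound
  rw [Filter.eventually_iff, UpperHalfPlane.atImInfty_mem] at hc
  obtain ⟨Y, hY⟩ := hc
  refine ⟨|c| + 1, by positivity, Y, fun z hz => ?_⟩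
  have := hY z hz
  simp only [Set.mem_ofPred_eq, Real.norm_eq_abs, Real.abs_exp, div_one] at this
  refine this.trans ?_
  gcongr
  exact (le_abs_self c).trans (by linarith)

theorem growth_aux {x K : ℝ} (h : ∃ Y : ℝ, ∀ y : ℝ, Y ≤ y → 0 < y → Real.exp (x * y) ≤ K) :
    x ≤ 0 := by
  by_contra hx
  push Not at hx
  obtain ⟨Y, hY⟩ := h
  have h1 := hY (max (max Y 1) (K / x)) (by simp) (by
    have : (1 : ℝ) ≤ max (max Y 1) (K / x) := by simp
    linarith)
  have h2 := Real.add_one_le_exp (x * max (max Y 1) (K / x))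
  have h3 : x * (K / x) ≤ x * max (max Y 1) (K / x) := by gcongr; simp
  rw [mul_div_cancel₀ _ hx.ne'] at h3
  linarith

theorem mem_Gamma0_of_theta_slash {N : ℕ} [NeZero N] (g : SL(2, ℤ))
    (h : (⇑(theta N) : ℍ → ℂ) ∣[(12 : ℤ)] g = theta N) : g ∈ Gamma0 N := by
  have hN : N ≠ 0 := NeZero.ne N
  have hNpos : 0 < N := Nat.pos_of_ne_zero hN
  obtain ⟨γ, A, D, B, hA, hD, hAD, hAg, hm⟩ := exists_hermite N g
  have hA' : (0 : ℝ) < A := by exact_mod_cast hA
  have hD' : (0 : ℝ) < D := by exact_mod_cast hD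
  have hα : heckeDiagMatrix N = upperTriangularGL (N : ℝ) 0 1 (by simpa using hN) := by
    simp [heckeDiagMatrix, hN]
  -- the equality of slashes
  have key : (⇑delta' : ℍ → ℂ) ∣[(12 : ℤ)]
      (upperTriangularGL (A : ℝ) (B : ℝ) (D : ℝ) (by positivity)) =
      (⇑delta' : ℍ → ℂ) ∣[(12 : ℤ)] (upperTriangularGL (N : ℝ) 0 1 (by simpa using hN)) := by
    rw [← hα]
    rw [coe_theta, SL_smul_slash] at h
    have hc : ((N : ℂ) ^ (-11 : ℤ)) ≠ 0 := zpow_ne_zero _ (by exact_mod_cast hN)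
    have h2 := smul_right_injective (ℍ → ℂ) hc h
    rw [SL_slash, ← SlashAction.slash_mul] at h2
    rw [← h2]
    have h3 : (heckeDiagMatrix N * (toGL ((Matrix.SpecialLinearGroup.map (Int.castRingHom ℝ)) g)))
      = mapGL ℝ γ * upperTriangularGL (A : ℝ) (B : ℝ) (D : ℝ) (by positivity) := hm
    rw [h3, SlashAction.slash_mul]
    congr 1
    exact (delta'.slash_action_eq' _ ⟨γ, rfl⟩).symm
  obtain ⟨c₁, hc₁, Y₁, hY₁⟩ := delta'_lower
  obtain ⟨c₂, hc₂, Y₂, hY₂⟩ := delta'_upper
  have hN' : (0 : ℝ) < N := by exact_mod_cast hNpos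
  set Cβ : ℝ := ((A * D : ℝ) ^ ((12 : ℤ) - 1) * (D : ℝ) ^ (-(12 : ℤ))) with hCβ
  set Cα : ℝ := ((N * 1 : ℝ) ^ ((12 : ℤ) - 1) * (1 : ℝ) ^ (-(12 : ℤ))) with hCα
  have hCβpos : 0 < Cβ := by positivity
  have hCαpos : 0 < Cα := by positivity
  have hgr : 2 * Real.pi * (N - A / D) ≤ 0 := by
    refine growth_aux (K := c₁ * c₂ * Cα / Cβ)
      ⟨max (Y₁ * D / A) (Y₂ / N), fun y hy hy0 => ?_⟩
    have hy1 : Y₁ * D / A ≤ y := (le_max_left _ _).trans hy
    have hy2 : Y₂ / N ≤ y := (le_max_right _ _).trans hy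
    set τ : ℍ := ⟨⟨0, y⟩, hy0⟩ with hτ
    have hτim : τ.im = y := rfl
    have e1 := im_upperTriangular_smul (b := (B : ℝ)) hA' hD' τ
    have e2 := im_upperTriangular_smul (b := (0 : ℝ)) hN' one_pos τ
    have f1 := hY₁ (upperTriangularGL (A : ℝ) (B : ℝ) (D : ℝ) (by positivity) • τ) (by
      rw [e1, hτim, le_div_iff₀ hD']
      rw [div_le_iff₀ hA'] at hy1
      linarith)
    have f2 := hY₂ (upperTriangularGL (N : ℝ) 0 1 (by positivity) • τ) (by
      rw [e2, hτim, div_one]
      rw [div_le_iff₀ hN'] at hy2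
      linarith)
    have hk := congrArg (fun F : ℍ → ℂ => ‖F τ‖) key
    rw [norm_slash_upperTriangular hA' hD', norm_slash_upperTriangular hN' one_pos] at hk
    rw [e1, hτim] at f1
    rw [e2, hτim, div_one] at f2
    have g1 : Real.exp (-2 * Real.pi * (A * y / D)) * Cβ ≤
        c₁ * c₂ * Cα * Real.exp (-2 * Real.pi * (N * y)) := by
      calc Real.exp (-2 * Real.pi * (A * y / D)) * Cβ
          ≤ c₁ * ‖delta' (upperTriangularGL (A : ℝ) (B : ℝ) (D : ℝ) (by positivity) • τ)‖ * Cβ := by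
            gcongr
        _ = c₁ * (‖delta' (upperTriangularGL (A : ℝ) (B : ℝ) (D : ℝ) (by positivity) • τ)‖ * Cβ) := by
            ring
        _ = c₁ * (‖delta' (upperTriangularGL (N : ℝ) 0 1 (by positivity) • τ)‖ * Cα) := by
            rw [hk]
        _ ≤ c₁ * ((c₂ * Real.exp (-2 * Real.pi * (N * y))) * Cα) := by gcongr
        _ = c₁ * c₂ * Cα * Real.exp (-2 * Real.pi * (N * y)) := by ring
    rw [le_div_iff₀ hCβpos]
    have g2 : Real.exp (2 * Real.pi * (N - A / D) * y) =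
        Real.exp (-2 * Real.pi * (A * y / D)) * Real.exp (2 * Real.pi * (N * y)) := by
      rw [← Real.exp_add]; congr 1; ring
    rw [g2]
    calc Real.exp (-2 * Real.pi * (A * y / D)) * Real.exp (2 * Real.pi * (N * y)) * Cβ
        = (Real.exp (-2 * Real.pi * (A * y / D)) * Cβ) * Real.exp (2 * Real.pi * (N * y)) := by ring
      _ ≤ (c₁ * c₂ * Cα * Real.exp (-2 * Real.pi * (N * y))) *
          Real.exp (2 * Real.pi * (N * y)) := by gcongr
      _ = c₁ * c₂ * Cα * (Real.exp (-2 * Real.pi * (N * y)) *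
          Real.exp (2 * Real.pi * (N * y))) := by ring
      _ = c₁ * c₂ * Cα := by
        rw [← Real.exp_add]
        have : -2 * Real.pi * (N * y) + 2 * Real.pi * (N * y) = 0 := by ring
        rw [this, Real.exp_zero, mul_one]
  have hND : (N : ℝ) ≤ A / D := by
    have : 0 < 2 * Real.pi := by positivity
    nlinarith
  rw [le_div_iff₀ hD'] at hND
  have hND' : N * D ≤ A := by exact_mod_cast hND
  have hD1 : D = 1 := by
    rw [← hAD] at hND'
    have : A * (D * D) ≤ A * 1 := by rw [mul_one]; linarith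
    have := Nat.le_of_mul_le_mul_left this hA
    nlinarith
  rw [hD1, mul_one] at hAD
  rw [Gamma0_mem, ZMod.intCast_zmod_eq_zero_iff_dvd, ← hAD]
  exact hAg

/-- the conjugates of `θ_N` are pairwise distinct -/
theorem theta_conj_injective (N : ℕ) [NeZero N] :
    Function.Injective (fun q : Cos N => (quotientFunc (theta N) q : ℍ → ℂ)) := by
  intro q q' h
  obtain ⟨⟨_, g, rfl⟩, rfl⟩ := QuotientGroup.mk_surjective q
  obtain ⟨⟨_, g', rfl⟩, rfl⟩ := QuotientGroup.mk_surjective q'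
  simp only at h
  rw [quotientFunc_mk_SL, quotientFunc_mk_SL] at h
  have h1 : (⇑(theta N) : ℍ → ℂ) ∣[(12 : ℤ)] (g⁻¹ * g') = theta N := by
    rw [SlashAction.slash_mul, h, ← SlashAction.slash_mul, inv_mul_cancel, SlashAction.slash_one]
  have h2 := mem_Gamma0_of_theta_slash _ h1
  rw [QuotientGroup.eq, Subgroup.mem_subgroupOf]
  refine ⟨g⁻¹ * g', h2, ?_⟩
  simp

/-- **Universal Lagrange interpolation**: there is a nonzero level one form `D` such that for any
form `f` on `Γ₀(N)`, `D f` is a combination of `θ_N^i` with level one coefficients. -/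
theorem lagrange_universal (N : ℕ) [NeZero N] :
    ∃ (m : ℕ) (l : ℤ) (D : ℍ → ℂ), IsL1 l D ∧ D ≠ 0 ∧
      ∀ (k : ℤ) (f : ModularForm (Gamma0 N : Subgroup (GL (Fin 2) ℝ)) k),
        ∃ a : ℕ → ℍ → ℂ, (∀ i < m, IsL1 (k + l - 12 * i) (a i)) ∧
          D * (⇑f : ℍ → ℂ) = ∑ i ∈ Finset.range m, a i * (⇑(theta N) : ℍ → ℂ) ^ i := by
  classical
  obtain ⟨n, hn⟩ : ∃ n, Fintype.card (Cos N) = n + 1 :=
    Nat.exists_eq_succ_of_ne_zero (Fintype.card_pos_iff.mpr ⟨cos1 N⟩).ne'
  let e : Fin (n + 1) ≃ Cos N := (Fintype.equivFinOfCardEq hn).symm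
  let th : Cos N → ℍ → ℂ := fun q => quotientFunc (theta N) q
  let δ : ℍ → ℂ := ⇑delta'
  have hth : ConjFam 12 th := conjFam_quotientFunc (theta N)
  let Mf : Fin (n + 1) → Cos N → ℍ → ℂ := fun j q => th q ^ j.1 * δ ^ j.rev.1
  have hMf : ∀ j, ConjFam (12 * n) (Mf j) := by
    intro j
    have h1 := (hth.pow j.1).mul (ConjFam.of_isL1 (isL1_delta'.pow j.rev.1))
    refine h1.cast ?_
    have : (j.rev.1 : ℤ) = n - j.1 := by
      rw [Fin.val_rev]
      have := j.2
      omega
    rw [this]; ring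
  let M : Matrix (Fin (n + 1)) (Fin (n + 1)) (ℍ → ℂ) :=
    Matrix.projVandermonde (fun i => th (e i)) (fun _ => δ)
  have hM : ∀ i j, M i j = Mf j (e i) := fun i j => rfl
  -- the Gram matrix
  have hG : ∀ i j, IsL1 (24 * n) ((M.transpose * M) i j) := by
    intro i j
    rw [Matrix.mul_apply]
    simp only [Matrix.transpose_apply, hM]
    rw [Equiv.sum_comp e (fun q => Mf i q * Mf j q)]
    exact (((hMf i).mul (hMf j)).sum_isL1).cast (by ring)
  refine ⟨n + 1, (n + 1 : ℕ) * (24 * n), (M.transpose * M).det, isL1_det _ hG, ?_, ?_⟩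
  · -- nonvanishing
    rw [Matrix.det_mul, Matrix.det_transpose]
    have hdet : M.det = ∏ i : Fin (n + 1), ∏ j ∈ Finset.Ioi i,
        (th (e j) * δ - th (e i) * δ) := Matrix.det_projVandermonde _ _
    have hδ : MDiff δ := delta'.holo'
    have hfac : ∀ i j, MDiff (th (e j) * δ - th (e i) * δ) := fun i j =>
      ((hth.holo _).mul hδ).sub ((hth.holo _).mul hδ)
    have hin : ∀ i : Fin (n + 1), MDiff (∏ j ∈ Finset.Ioi i, (th (e j) * δ - th (e i) * δ)) := by
      intro i
      refine MDifferentiable.prod ?_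
      intro j _
      exact hfac i j
    have hne : M.det ≠ 0 := by
      rw [hdet]
      intro h0
      rw [UpperHalfPlane.prod_eq_zero_iff (fun i _ => hin i)] at h0
      obtain ⟨i, -, hi⟩ := h0
      rw [UpperHalfPlane.prod_eq_zero_iff (fun j _ => hfac i j)] at hi
      obtain ⟨j, hj, hij⟩ := hi
      rw [← sub_mul, UpperHalfPlane.mul_eq_zero_iff ((hth.holo _).sub (hth.holo _)) hδ] at hij
      rcases hij with hij | hij
      · have := theta_conj_injective N (sub_eq_zero.mp hij)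
        have := e.injective this
        rw [Finset.mem_Ioi] at hj
        exact absurd this hj.ne'
      · exact delta'_ne_zero UpperHalfPlane.I (congrFun hij _)
    have hMD : MDiff M.det := by
      rw [hdet]
      refine MDifferentiable.prod ?_
      intro i _
      exact hin i
    intro h0
    rw [UpperHalfPlane.mul_eq_zero_iff hMD hMD] at h0
    exact h0.elim hne hne
  · intro k f
    let F : Fin (n + 1) → ℍ → ℂ := fun i => quotientFunc f (e i)
    let t : Fin (n + 1) → ℍ → ℂ := M.transpose.mulVec F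
    let y : Fin (n + 1) → ℍ → ℂ := (M.transpose * M).adjugate.mulVec t
    have ht : ∀ j, IsL1 (12 * n + k) (t j) := by
      intro j
      have : t j = ∑ q, Mf j q * quotientFunc f q := by
        change ∑ i, M i j * F i = _
        exact Equiv.sum_comp e (fun q => Mf j q * quotientFunc f q)
      rw [this]
      exact ((hMf j).mul (conjFam_quotientFunc f)).sum_isL1
    have hy : ∀ j, IsL1 (n * (24 * n) + (12 * n + k)) (y j) := by
      intro j
      change IsL1 _ (∑ i, (M.transpose * M).adjugate j i * t i)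
      exact IsL1.sum fun i _ => (isL1_adjugate _ hG j i).mul (ht i)
    have hlag := lagrange_matrix M F
    have h1 := congrFun hlag (e.symm (cos1 N))
    have hF1 : F (e.symm (cos1 N)) = ⇑f := by
      change quotientFunc f (e (e.symm (cos1 N))) = _
      rw [Equiv.apply_symm_apply, quotientFunc_cos1]
    have hM1 : ∀ j, M (e.symm (cos1 N)) j = (⇑(theta N) : ℍ → ℂ) ^ j.1 * δ ^ j.rev.1 := by
      intro j
      rw [hM]
      change th (e (e.symm (cos1 N))) ^ j.1 * δ ^ j.rev.1 = _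
      rw [Equiv.apply_symm_apply]
      change (quotientFunc (theta N) (cos1 N)) ^ j.1 * δ ^ j.rev.1 = _
      rw [quotientFunc_cos1]
    rw [Pi.smul_apply, hF1, smul_eq_mul] at h1
    refine ⟨fun i => if h : i < n + 1 then δ ^ (n - i) * y ⟨i, h⟩ else 0, fun i hi => ?_, ?_⟩
    · simp only [hi, dif_pos]
      refine ((isL1_delta'.pow (n - i)).mul (hy ⟨i, hi⟩)).cast ?_
      rw [Nat.cast_sub (by omega)]
      push_cast
      ring
    · rw [← h1]
      rw [Finset.sum_range]
      change ∑ j, M (e.symm (cos1 N)) j * y j = _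
      refine Finset.sum_congr rfl fun j _ => ?_
      beta_reduce
      rw [hM1 j, dif_pos j.2, Fin.val_rev]
      have : n + 1 - (j.1 + 1) = n - j.1 := by omega
      rw [this]
      ring

/-- Lagrange interpolation, in the format used for the descent argument. -/
theorem exists_lagrange {N : ℕ} [NeZero N] {k : ℤ}
    (f : ModularForm (Gamma0 N : Subgroup (GL (Fin 2) ℝ)) k) :
    ∃ (m : ℕ) (l : ℤ) (a b : ℕ → ℍ → ℂ), (∀ i < m, IsL1 (l - 12 * i) (b i)) ∧
      (∀ i < m, IsL1 (k + l - 12 * i) (a i)) ∧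
      (∑ i ∈ Finset.range m, b i * (⇑(theta N) : ℍ → ℂ) ^ i) ≠ 0 ∧
      (∑ i ∈ Finset.range m, b i * (⇑(theta N) : ℍ → ℂ) ^ i) * ⇑f =
        ∑ i ∈ Finset.range m, a i * (⇑(theta N) : ℍ → ℂ) ^ i := by
  obtain ⟨m, l, D, hD, hD0, h⟩ := lagrange_universal N
  obtain ⟨a, ha, hf⟩ := h k f
  have hm : 0 < m := by
    rcases Nat.eq_zero_or_pos m with rfl | hm
    · exfalso
      -- apply the relation to the nonzero form `1`
      obtain ⟨a', -, ha'⟩ := h 0 1
      apply hD0
      simpa using ha'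
    · exact hm
  have hsum : ∑ i ∈ Finset.range m, (if i = 0 then D else 0) * (⇑(theta N) : ℍ → ℂ) ^ i = D := by
    rw [Finset.sum_eq_single_of_mem 0 (Finset.mem_range.mpr hm)]
    · simp
    · intro i _ hi
      simp [hi]
  refine ⟨m, l, a, fun i => if i = 0 then D else 0, ?_, ha, ?_, ?_⟩
  · intro i _
    beta_reduce
    split_ifs with hi
    · subst hi
      simpa using hD
    · exact IsL1.zero _
  · rw [hsum]; exact hD0
  · rw [hsum]; exact hf

end Fermat.Agent.IntStr
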