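import Fermat.Agent.IntStr.Assembly
import Fermat.Agent.IntStr.Conj
import Fermat.Agent.IntStr.Lagrange
import Fermat.Agent.IntStr.HeckeFinite

/-!
# The integral structure on `S_k(Γ₀(N))`, all weights
-/

set_option autoImplicit false

open UpperHalfPlane ModularForm MatrixGroups CongruenceSubgroup

noncomputable section

namespace Fermat.Agent.IntStr

theorem hasRel_cuspForm (N : ℕ) [NeZero N] (k : ℤ)
    (f : CuspForm (Gamma0 N : Subgroup (GL (Fin 2) ℝ)) k) : HasRel N k f := by
  refine ⟨exists_monic_relation f, ?_⟩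
  obtain ⟨m, l, D, hD, hD0, h⟩ := lagrange_universal N
  obtain ⟨a, ha, hf⟩ := h k (ModularFormClass.modularForm f)
  refine ⟨l, _, D, ?_, hD.mem_VN N, hD0, hf⟩
  refine Submodule.sum_mem _ fun i hi => ?_
  rw [Finset.mem_range] at hi
  exact VN.cast (VN.mul ((ha i hi).mem_VN N) (VN.pow (theta_mem_VN N) i)) (by ring)

/-- **Integral structure**: `S_k(Γ₀(N))` is spanned by forms with integral `q`-expansion. -/
theorem hasIntegralStructure (N : ℕ) [NeZero N] (k : ℤ) : CuspForm.HasIntegralStructure N k :=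
  hasIntegralStructure_of_hasRel N k (hasRel_cuspForm N k)

/-- The Hecke algebra is a finite `ℤ`-module (all weights). -/
theorem moduleFinite_heckeAlgebra (N : ℕ) [NeZero N] (k : ℤ) (S : Set ℕ) :
    Module.Finite ℤ (CuspForm.heckeAlgebra N k S) := by
  rcases le_or_gt k 0 with hk | hk
  · exact moduleFinite_heckeAlgebra_of_nonpos N k hk S
  · exact moduleFinite_heckeAlgebra_of_integralStructure N k hk S (hasIntegralStructure N k)

/-- `Aut(ℂ)` acts on cusp forms through their `q`-expansions. -/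
theorem exists_conj (N : ℕ) [NeZero N] (k : ℤ) (σ : ℂ →+* ℂ)
    (f : CuspForm (Gamma0 N : Subgroup (GL (Fin 2) ℝ)) k) :
    ∃ g : CuspForm (Gamma0 N : Subgroup (GL (Fin 2) ℝ)) k,
      ∀ n, ModularFormClass.qCoeff g n = σ (ModularFormClass.qCoeff f n) := by
  obtain ⟨g, ⟨G, rfl⟩, hg⟩ := exists_conj_of_hasRel (N := N) (k := k) σ ⟨f, rfl⟩
    (hasRel_cuspForm N k f)
  refine ⟨G, fun n => ?_⟩
  simp only [ModularFormClass.qCoeff, hg, PowerSeries.coeff_map]

end Fermat.Agent.IntStr
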