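import Mathlib

/-!
# The fixed field of `Aut(ℂ)` is `ℚ`, and Galois descent for power series
-/

set_option autoImplicit false

open scoped Polynomial

namespace Fermat.Agent.IntStr

/-- Extending automorphisms of the coefficient field through a transcendence basis. -/
theorem exists_ringEquiv_of_basis {R : Type*} [Field R] [Algebra R ℂ] {ι : Type*} (v : ι → ℂ)
    (hv : IsTranscendenceBasis R v) (e : MvPolynomial ι R ≃+* MvPolynomial ι R) :
    ∃ σ : ℂ ≃+* ℂ, ∀ p : MvPolynomial ι R, σ (MvPolynomial.aeval v p) = MvPolynomial.aeval v (e p) := by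
  let := IsAlgClosed.isAlgClosure_of_transcendence_basis v hv
  let e' : Algebra.adjoin R (Set.range v) ≃+* Algebra.adjoin R (Set.range v) :=
    (hv.1.aevalEquiv.symm.toRingEquiv.trans e).trans hv.1.aevalEquiv.toRingEquiv
  refine ⟨IsAlgClosure.equivOfEquiv ℂ ℂ e', fun p => ?_⟩
  have h := IsAlgClosure.equivOfEquiv_algebraMap ℂ ℂ e' (hv.1.aevalEquiv p)
  have h1 : algebraMap (Algebra.adjoin R (Set.range v)) ℂ (hv.1.aevalEquiv p) =
      MvPolynomial.aeval v p := by
    simp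
  have h2 : algebraMap (Algebra.adjoin R (Set.range v)) ℂ (e' (hv.1.aevalEquiv p)) =
      MvPolynomial.aeval v (e p) := by
    simp [e']
  rw [← h1, ← h2, h]

theorem exists_aut_ne_of_transcendental (x : ℂ) (hx : Transcendental ℚ x) :
    ∃ σ : ℂ ≃+* ℂ, σ x ≠ x := by
  classical
  have hind : AlgebraicIndepOn ℚ id ({x} : Set ℂ) := by
    have := (algebraicIndependent_unique_type_iff (R := ℚ) (ι := ({x} : Set ℂ))
      (x := fun i => (i : ℂ))).2 hx
    exact this
  obtain ⟨t, hst, ht⟩ := exists_isTranscendenceBasis_superset hind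
  let e : MvPolynomial t ℚ ≃+* MvPolynomial t ℚ :=
    (AlgEquiv.ofAlgHom (MvPolynomial.aeval (fun i => - MvPolynomial.X i))
      (MvPolynomial.aeval (fun i => - MvPolynomial.X i))
      (by ext; simp) (by ext; simp)).toRingEquiv
  obtain ⟨σ, hσ⟩ := exists_ringEquiv_of_basis _ ht e
  refine ⟨σ, ?_⟩
  have hxt : x ∈ t := hst (by simp)
  have h := hσ (MvPolynomial.X ⟨x, hxt⟩)
  simp only [MvPolynomial.aeval_X, e] at h
  have h3 : (MvPolynomial.aeval (fun i : t => (i : ℂ))) ((AlgEquiv.ofAlgHom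
      (MvPolynomial.aeval (fun i => - MvPolynomial.X i) : MvPolynomial t ℚ →ₐ[ℚ] MvPolynomial t ℚ)
      (MvPolynomial.aeval (fun i => - MvPolynomial.X i))
      (by ext; simp) (by ext; simp)).toRingEquiv (MvPolynomial.X ⟨x, hxt⟩)) = - x := by
    simp
  rw [h3] at h
  intro h4
  rw [h4] at h
  have : x = 0 := by linear_combination h / 2
  exact hx (this ▸ isAlgebraic_zero)

theorem exists_aut_ne_of_isAlgebraic (x : ℂ) (hx : IsAlgebraic ℚ x)
    (hx' : x ∉ Set.range (algebraMap ℚ ℂ)) : ∃ σ : ℂ ≃+* ℂ, σ x ≠ x := by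
  classical
  -- the algebraic closure of `ℚ` in `ℂ`
  let K : IntermediateField ℚ ℂ := algebraicClosure ℚ ℂ
  have hxK : x ∈ K := mem_algebraicClosure_iff.2 hx
  let x' : K := ⟨x, hxK⟩
  have : IsAlgClosure ℚ K := algebraicClosure.isAlgClosure ℚ ℂ
  have : IsGalois ℚ K := IsAlgClosure.isGalois ℚ K
  have hfix : ∃ τ : K ≃ₐ[ℚ] K, τ x' ≠ x' := by
    by_contra hcon
    push Not at hcon
    have : x' ∈ Set.range (algebraMap ℚ K) := by
      have := (InfiniteGalois.mem_range_algebraMap_iff_fixed (k := ℚ) (K := K) x').2 hcon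
      exact this
    obtain ⟨r, hr⟩ := this
    exact hx' ⟨r, by
      have := congrArg (algebraMap K ℂ) hr
      simpa using this⟩
  obtain ⟨τ, hτ⟩ := hfix
  obtain ⟨s, hs⟩ := exists_isTranscendenceBasis K ℂ
  obtain ⟨σ, hσ⟩ := exists_ringEquiv_of_basis _ hs
    (MvPolynomial.mapEquiv s (τ.toRingEquiv))
  refine ⟨σ, ?_⟩
  have h := hσ (MvPolynomial.C x')
  simp only [MvPolynomial.mapEquiv_apply, MvPolynomial.map_C, MvPolynomial.aeval_C] at h
  intro h4
  apply hτ
  apply (algebraMap K ℂ).injective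
  have : algebraMap K ℂ x' = x := rfl
  rw [this, h4] at h
  exact h.symm

/-- The fixed field of `Aut(ℂ)` is `ℚ`. -/
theorem mem_range_of_forall_aut (x : ℂ) (hx : ∀ σ : ℂ ≃+* ℂ, σ x = x) :
    ∃ r : ℚ, (r : ℂ) = x := by
  by_contra hcon
  have hx' : x ∉ Set.range (algebraMap ℚ ℂ) := by
    rintro ⟨r, hr⟩
    exact hcon ⟨r, by simpa using hr⟩
  by_cases h : IsAlgebraic ℚ x
  · obtain ⟨σ, hσ⟩ := exists_aut_ne_of_isAlgebraic x h hx'
    exact hσ (hx σ)
  · obtain ⟨σ, hσ⟩ := exists_aut_ne_of_transcendental x h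
    exact hσ (hx σ)

end Fermat.Agent.IntStr
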