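import Fermat.Agent.IntStr.LevelOne
import Fermat.Prelude.Def_ModularForm_HeckeOperator
import Fermat.Prelude.Thm_CongruenceSubgroup_one_mem_strictPeriods_Gamma0

/-!
# The form `θ_N(z) = 1728 Δ(N z)` on `Γ₀(N)`
-/

set_option autoImplicit false

open UpperHalfPlane ModularForm MatrixGroups CongruenceSubgroup Matrix.SpecialLinearGroup

open scoped Pointwise

noncomputable section

namespace Fermat.Agent.IntStr

/-- restriction of a cusp form to a smaller group -/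
def restrictCusp {Γ Γ' : Subgroup (GL (Fin 2) ℝ)} {k : ℤ} (h : Γ' ≤ Γ) (f : CuspForm Γ k) :
    CuspForm Γ' k where
  toFun := f
  slash_action_eq' γ hγ := f.slash_action_eq' γ (h hγ)
  holo' := f.holo'
  zero_at_cusps' hc := f.zero_at_cusps' (hc.mono h)

/-- restriction of a modular form to a smaller group -/
def restrictMod {Γ Γ' : Subgroup (GL (Fin 2) ℝ)} {k : ℤ} (h : Γ' ≤ Γ) (f : ModularForm Γ k) :
    ModularForm Γ' k where
  toFun := f
  slash_action_eq' γ hγ := f.slash_action_eq' γ (h hγ)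
  holo' := f.holo'
  bdd_at_cusps' hc := f.bdd_at_cusps' (hc.mono h)

@[simp] theorem coe_restrictCusp {Γ Γ' : Subgroup (GL (Fin 2) ℝ)} {k : ℤ} (h : Γ' ≤ Γ)
    (f : CuspForm Γ k) : (⇑(restrictCusp h f) : ℍ → ℂ) = f := rfl

@[simp] theorem coe_restrictMod {Γ Γ' : Subgroup (GL (Fin 2) ℝ)} {k : ℤ} (h : Γ' ≤ Γ)
    (f : ModularForm Γ k) : (⇑(restrictMod h f) : ℍ → ℂ) = f := rfl

theorem Gamma0_le_SL (N : ℕ) : (Gamma0 N : Subgroup (GL (Fin 2) ℝ)) ≤ 𝒮ℒ := by
  rintro _ ⟨g, -, rfl⟩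
  exact ⟨g, rfl⟩

/-- the integral matrix `α g α⁻¹`, `α = diag(N, 1)`, for `g ∈ Γ₀(N)` -/
def conjSL (N : ℕ) (g : SL(2, ℤ)) (c : ℤ) (hc : g 1 0 = N * c) : SL(2, ℤ) :=
  ⟨!![g 0 0, N * g 0 1; c, g 1 1], by
    rw [Matrix.det_fin_two_of]
    have := g.det_coe
    rw [Matrix.det_fin_two, hc] at this
    linear_combination this⟩

theorem mapGL_apply' (g : SL(2, ℤ)) (i j : Fin 2) :
    ((mapGL ℝ g : GL (Fin 2) ℝ) : Matrix (Fin 2) (Fin 2) ℝ) i j = ((g i j : ℤ) : ℝ) := by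
  simp [mapGL_coe_matrix]

theorem heckeDiag_mul (N : ℕ) [NeZero N] (g : SL(2, ℤ)) (c : ℤ) (hc : g 1 0 = N * c) :
    heckeDiagMatrix N * (mapGL ℝ g) = mapGL ℝ (conjSL N g c hc) * heckeDiagMatrix N := by
  have hN : N ≠ 0 := NeZero.ne N
  apply Units.ext
  rw [Units.val_mul, Units.val_mul]
  ext i j
  rw [Matrix.mul_apply, Matrix.mul_apply, Fin.sum_univ_two, Fin.sum_univ_two,
    val_heckeDiagMatrix hN]
  simp only [mapGL_apply']
  fin_cases i <;> fin_cases j <;>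
    simp [conjSL, hc, mul_comm]

theorem Gamma0_le_conj (N : ℕ) [NeZero N] : (Gamma0 N : Subgroup (GL (Fin 2) ℝ)) ≤
    ConjAct.toConjAct (heckeDiagMatrix N)⁻¹ • (𝒮ℒ : Subgroup (GL (Fin 2) ℝ)) := by
  rintro _ ⟨g, hg, rfl⟩
  have hg' : g ∈ Gamma0 N := hg
  rw [Gamma0_mem] at hg'
  obtain ⟨c, hc⟩ := (ZMod.intCast_zmod_eq_zero_iff_dvd _ N).mp hg'
  rw [Subgroup.mem_pointwise_smul_iff_inv_smul_mem]
  refine ⟨conjSL N g c hc, ?_⟩
  have := heckeDiag_mul N g c hc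
  rw [← map_inv, inv_inv, ConjAct.toConjAct_smul]
  rw [show (mapGL ℝ : SL(2, ℤ) →* GL (Fin 2) ℝ) g = (mapGL ℝ) g from rfl, this,
    mul_inv_cancel_right]

/-- The cusp form `θ_N(z) = 1728 Δ(N z)`. -/
def theta (N : ℕ) [NeZero N] : CuspForm (Gamma0 N : Subgroup (GL (Fin 2) ℝ)) 12 :=
  ((N : ℂ) ^ (-11 : ℤ)) •
    restrictCusp (Gamma0_le_conj N) (CuspForm.translate delta' (heckeDiagMatrix N))

theorem coe_theta (N : ℕ) [NeZero N] : (⇑(theta N) : ℍ → ℂ) =
    ((N : ℂ) ^ (-11 : ℤ)) • ((⇑delta' : ℍ → ℂ) ∣[(12 : ℤ)] (heckeDiagMatrix N)) := rfl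

theorem theta_apply (N : ℕ) [NeZero N] (τ : ℍ) :
    theta N τ = delta' (heckeDiagMatrix N • τ) := by
  have hN : N ≠ 0 := NeZero.ne N
  have hN' : (N : ℂ) ≠ 0 := by exact_mod_cast hN
  rw [coe_theta, Pi.smul_apply, slash_heckeDiagMatrix_apply _ hN, smul_eq_mul, ← mul_assoc,
    ← zpow_add₀ hN']
  simp

theorem theta_ne_zero (N : ℕ) [NeZero N] (τ : ℍ) : theta N τ ≠ 0 := by
  rw [theta_apply]
  exact delta'_ne_zero _

theorem theta_qExpansion_coeff (N : ℕ) [NeZero N] (n : ℕ) :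
    (qExpansion 1 (theta N)).coeff n =
      if N ∣ n then (qExpansion 1 delta').coeff (n / N) else 0 := by
  have hN : N ≠ 0 := NeZero.ne N
  symm
  refine ModularFormClass.qExpansion_coeff_unique (f := theta N)
    (c := fun n => if N ∣ n then (qExpansion 1 delta').coeff (n / N) else 0) one_pos
    (CongruenceSubgroup.one_mem_strictPeriods_Gamma0 N) ?_ n
  intro τ
  have hinj : Function.Injective (fun m : ℕ => N * m) := fun a b h =>
    Nat.eq_of_mul_eq_mul_left (Nat.pos_of_ne_zero hN) h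
  rw [← hinj.hasSum_iff]
  · have h := ModularForm.hasSum_qExpansion delta' one_pos one_mem_strictPeriods_SL
      (heckeDiagMatrix N • τ)
    rw [theta_apply]
    convert h using 2 with m
    simp only [Function.comp_apply, dvd_mul_right, if_true,
      Nat.mul_div_cancel_left _ (Nat.pos_of_ne_zero hN), smul_eq_mul]
    congr 1
    rw [coe_heckeDiagMatrix_smul hN, pow_mul]
    congr 1
    simp only [Function.Periodic.qParam, ← Complex.exp_nat_mul]
    congr 1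
    ring
  · intro x hx
    have : ¬ N ∣ x := fun ⟨m, hm⟩ => hx ⟨m, hm.symm⟩
    simp [this]

theorem intQ_theta (N : ℕ) [NeZero N] : IntQ (theta N) := by
  intro n
  rw [theta_qExpansion_coeff]
  split_ifs
  · exact intQ_delta' _
  · exact ⟨0, by simp⟩

end Fermat.Agent.IntStr
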