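import Mathlib

/-!
# An analytic criterion: quotients integral over level one forms are modular forms
-/

set_option autoImplicit false

namespace Fermat.Agent.IntStr

open Filter Topology Function
open UpperHalfPlane hiding I
open scoped MatrixGroups ModularForm Manifold

/-! ### Root bounds -/

theorem norm_lt_of_relation {n : ℕ} {x : ℂ} {c : ℕ → ℂ} {ε : ℝ} (hε : 0 < ε) (hε1 : ε ≤ 1)
    (hrel : x ^ n + ∑ i ∈ Finset.Icc 1 n, c i * x ^ (n - i) = 0)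
    (hc : ∑ i ∈ Finset.Icc 1 n, ‖c i‖ < ε ^ n) : ‖x‖ < ε := by
  by_contra hcon
  push Not at hcon
  have hx : 0 < ‖x‖ := hε.trans_le hcon
  have h1 : ‖x‖ ^ n ≤ ∑ i ∈ Finset.Icc 1 n, ‖c i‖ * ‖x‖ ^ (n - i) := by
    have : x ^ n = - ∑ i ∈ Finset.Icc 1 n, c i * x ^ (n - i) := by linear_combination hrel
    rw [← norm_pow, this, norm_neg]
    refine (norm_sum_le _ _).trans (le_of_eq ?_)
    simp only [norm_mul, norm_pow]
  have h2 : ε ^ n * ‖x‖ ^ n ≤ (∑ i ∈ Finset.Icc 1 n, ‖c i‖) * ‖x‖ ^ n := by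
    calc ε ^ n * ‖x‖ ^ n ≤ ε ^ n * ∑ i ∈ Finset.Icc 1 n, ‖c i‖ * ‖x‖ ^ (n - i) := by gcongr
      _ = ∑ i ∈ Finset.Icc 1 n, ‖c i‖ * (ε ^ n * ‖x‖ ^ (n - i)) := by
        rw [Finset.mul_sum]; refine Finset.sum_congr rfl fun i _ => by ring
      _ ≤ ∑ i ∈ Finset.Icc 1 n, ‖c i‖ * ‖x‖ ^ n := by
        refine Finset.sum_le_sum fun i hi => ?_
        rw [Finset.mem_Icc] at hi
        gcongr
        calc ε ^ n * ‖x‖ ^ (n - i) ≤ ε ^ i * ‖x‖ ^ (n - i) := by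
              gcongr ?_ * _
              exact pow_le_pow_of_le_one hε.le hε1 hi.2
          _ ≤ ‖x‖ ^ i * ‖x‖ ^ (n - i) := by gcongr
          _ = ‖x‖ ^ n := by rw [← pow_add]; congr 1; omega
      _ = _ := by rw [Finset.sum_mul]
  have h3 : (∑ i ∈ Finset.Icc 1 n, ‖c i‖) * ‖x‖ ^ n < ε ^ n * ‖x‖ ^ n := by
    gcongr
  exact absurd h2 (not_le.2 h3)

theorem norm_le_of_relation {n : ℕ} {x : ℂ} {c : ℕ → ℂ}
    (hrel : x ^ n + ∑ i ∈ Finset.Icc 1 n, c i * x ^ (n - i) = 0) :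
    ‖x‖ ≤ 1 + ∑ i ∈ Finset.Icc 1 n, ‖c i‖ := by
  have hnn : 0 ≤ ∑ i ∈ Finset.Icc 1 n, ‖c i‖ := Finset.sum_nonneg fun _ _ => norm_nonneg _
  rcases le_or_gt ‖x‖ 1 with h | h
  · linarith
  rcases Nat.eq_zero_or_pos n with rfl | hn
  · simp at hrel
  have hx : 0 < ‖x‖ := one_pos.trans h
  have h1 : ‖x‖ ^ n ≤ ∑ i ∈ Finset.Icc 1 n, ‖c i‖ * ‖x‖ ^ (n - i) := by
    have : x ^ n = - ∑ i ∈ Finset.Icc 1 n, c i * x ^ (n - i) := by linear_combination hrel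
    rw [← norm_pow, this, norm_neg]
    refine (norm_sum_le _ _).trans (le_of_eq ?_)
    simp only [norm_mul, norm_pow]
  have h2 : ‖x‖ * ‖x‖ ^ (n - 1) ≤ (∑ i ∈ Finset.Icc 1 n, ‖c i‖) * ‖x‖ ^ (n - 1) := by
    calc ‖x‖ * ‖x‖ ^ (n - 1) = ‖x‖ ^ n := by rw [← pow_succ']; congr 1; omega
      _ ≤ _ := h1
      _ ≤ ∑ i ∈ Finset.Icc 1 n, ‖c i‖ * ‖x‖ ^ (n - 1) := by
        refine Finset.sum_le_sum fun i hi => ?_
        rw [Finset.mem_Icc] at hi
        gcongr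
        · exact h.le
        · exact hi.1
      _ = _ := by rw [Finset.sum_mul]
  have h3 : ‖x‖ ≤ ∑ i ∈ Finset.Icc 1 n, ‖c i‖ := le_of_mul_le_mul_right h2 (by positivity)
  linarith

theorem norm_le_of_homogeneous_relation {n : ℕ} {a b : ℂ} {c : ℕ → ℂ}
    (hrel : a ^ n + ∑ i ∈ Finset.Icc 1 n, c i * a ^ (n - i) * b ^ i = 0) :
    ‖a‖ ≤ (1 + ∑ i ∈ Finset.Icc 1 n, ‖c i‖) * ‖b‖ := by
  rcases Nat.eq_zero_or_pos n with rfl | hn
  · simp at hrel
  by_cases hb : b = 0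
  · subst hb
    have : ∑ i ∈ Finset.Icc 1 n, c i * a ^ (n - i) * (0 : ℂ) ^ i = 0 := by
      refine Finset.sum_eq_zero fun i hi => ?_
      rw [Finset.mem_Icc] at hi
      rw [zero_pow (by omega), mul_zero]
    rw [this, add_zero] at hrel
    have : a = 0 := by simpa [hn.ne'] using hrel
    simp [this]
  · have hb' : b ^ n ≠ 0 := pow_ne_zero _ hb
    have h : (a / b) ^ n + ∑ i ∈ Finset.Icc 1 n, c i * (a / b) ^ (n - i) = 0 := by
      have : b ^ n * ((a / b) ^ n + ∑ i ∈ Finset.Icc 1 n, c i * (a / b) ^ (n - i)) =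
          a ^ n + ∑ i ∈ Finset.Icc 1 n, c i * a ^ (n - i) * b ^ i := by
        rw [mul_add, div_pow, mul_div_cancel₀ _ hb', Finset.mul_sum]
        congr 1
        refine Finset.sum_congr rfl fun i hi => ?_
        rw [Finset.mem_Icc] at hi
        have h5 : b ^ n = b ^ (n - i) * b ^ i := by rw [← pow_add]; congr 1; omega
        rw [h5, div_pow]
        field_simp
      rw [hrel] at this
      exact (mul_eq_zero.1 this).resolve_left hb'
    have h6 := norm_le_of_relation h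
    rw [norm_div, div_le_iff₀ (norm_pos_iff.2 hb)] at h6
    exact h6

/-! ### Removable singularities -/

theorem exists_div_of_bound {U : Set ℂ} (hU : IsOpen U) {a b : ℂ → ℂ} {C : ℂ → ℝ}
    (ha : DifferentiableOn ℂ a U) (hb : DifferentiableOn ℂ b U) (hC : ContinuousOn C U)
    (hb0 : ∀ z ∈ U, ∀ᶠ w in 𝓝[≠] z, b w ≠ 0)
    (h : ∀ z ∈ U, ‖a z‖ ≤ C z * ‖b z‖) :
    ∃ g : ℂ → ℂ, DifferentiableOn ℂ g U ∧ ∀ z ∈ U, g z * b z = a z := by
  let f : ℂ → ℂ := fun z => a z / b z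
  let g : ℂ → ℂ := fun z => limUnder (𝓝[≠] z) f
  have hfdiff : ∀ z ∈ U, b z ≠ 0 → DifferentiableAt ℂ f z := fun z hz hbz =>
    (ha.differentiableAt (hU.mem_nhds hz)).div (hb.differentiableAt (hU.mem_nhds hz)) hbz
  have hg : ∀ z ∈ U, b z ≠ 0 → g z = f z := fun z hz hbz =>
    ((hfdiff z hz hbz).continuousAt.tendsto.mono_left nhdsWithin_le_nhds).limUnder_eq
  refine ⟨g, ?_, ?_⟩
  · intro z hz
    apply DifferentiableAt.differentiableWithinAt
    -- choose a neighbourhood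
    have h1 : ∀ᶠ w in 𝓝 z, w ∈ U := hU.mem_nhds hz
    have h2 : ∀ᶠ w in 𝓝 z, w ≠ z → b w ≠ 0 := by
      have := hb0 z hz
      rw [eventually_nhdsWithin_iff] at this
      exact this
    have h3 : ∀ᶠ w in 𝓝 z, C w < C z + 1 :=
      ((hC.continuousAt (hU.mem_nhds hz)).tendsto).eventually (gt_mem_nhds (lt_add_one _))
    have h123 := h1.and (h2.and h3)
    rw [eventually_iff, mem_nhds_iff] at h123
    obtain ⟨s, hs, hso, hzs⟩ := h123
    have hd : DifferentiableOn ℂ f (s \ {z}) := fun w hw =>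
      (hfdiff w (hs hw.1).1 ((hs hw.1).2.1 hw.2)).differentiableWithinAt
    have hbd : BddAbove (norm ∘ f '' (s \ {z})) := by
      refine ⟨C z + 1, ?_⟩
      rintro _ ⟨w, hw, rfl⟩
      have hbw : b w ≠ 0 := (hs hw.1).2.1 hw.2
      simp only [comp_apply, f, norm_div]
      rw [div_le_iff₀ (norm_pos_iff.2 hbw)]
      refine (h w (hs hw.1).1).trans ?_
      gcongr
      exact (hs hw.1).2.2.le
    have key := Complex.differentiableOn_update_limUnder_of_bddAbove (hso.mem_nhds hzs) hd hbd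
    have key2 := key.differentiableAt (hso.mem_nhds hzs)
    refine key2.congr_of_eventuallyEq ?_
    filter_upwards [hso.mem_nhds hzs] with w hw
    by_cases hwz : w = z
    · subst hwz
      simp [g]
    · rw [update_of_ne hwz]
      exact hg w (hs hw).1 ((hs hw).2.1 hwz)
  · intro z hz
    by_cases hbz : b z = 0
    · have := h z hz
      rw [hbz, norm_zero, mul_zero] at this
      rw [hbz, mul_zero]
      exact (norm_le_zero_iff.1 this).symm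
    · rw [hg z hz hbz]
      exact div_mul_cancel₀ _ hbz

theorem exists_holo {a b : ℍ → ℂ} (ha : MDiff a) (hb : MDiff b) (hb0 : b ≠ 0) {n : ℕ}
    {c : ℕ → ℍ → ℂ} (hc : ∀ i ∈ Finset.Icc 1 n, MDiff (c i))
    (hrel : a ^ n + ∑ i ∈ Finset.Icc 1 n, c i * a ^ (n - i) * b ^ i = 0) :
    ∃ g : ℍ → ℂ, MDiff g ∧ g * b = a ∧ g ^ n + ∑ i ∈ Finset.Icc 1 n, c i * g ^ (n - i) = 0 := by
  have hrel' : ∀ τ : ℍ, a τ ^ n + ∑ i ∈ Finset.Icc 1 n, c i τ * a τ ^ (n - i) * b τ ^ i = 0 := by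
    intro τ
    simpa using congrFun hrel τ
  obtain ⟨g, hg1, hg2⟩ := exists_div_of_bound (U := upperHalfPlaneSet) isOpen_upperHalfPlaneSet
    (a := a ∘ ofComplex) (b := b ∘ ofComplex)
    (C := fun z => 1 + ∑ i ∈ Finset.Icc 1 n, ‖(c i ∘ ofComplex) z‖)
    (UpperHalfPlane.mdifferentiable_iff.1 ha) (UpperHalfPlane.mdifferentiable_iff.1 hb)
    (by
      refine continuousOn_const.add (continuousOn_finsetSum _ fun i hi => ?_)
      exact (UpperHalfPlane.mdifferentiable_iff.1 (hc i hi)).continuousOn.norm)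
    (by
      intro z hz
      by_contra hcon
      apply hb0
      apply eq_zero_of_frequently hb (τ := ⟨z, hz⟩)
      rw [Filter.not_eventually] at hcon
      rw [frequently_nhdsWithin_iff] at hcon ⊢
      rw [← isOpenEmbedding_coe.map_nhds_eq (⟨z, hz⟩ : ℍ), frequently_map] at hcon
      refine hcon.mono fun w hw => ?_
      simp only [comp_apply, ofComplex_apply, not_not] at hw
      refine ⟨hw.1, ?_⟩
      intro hwz
      apply hw.2
      simp only [Set.mem_singleton_iff] at hwz ⊢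
      rw [hwz])
    (by
      intro z hz
      exact norm_le_of_homogeneous_relation (hrel' (ofComplex z)))
  have hgm : MDiff (fun τ : ℍ => g τ) := by
    rw [UpperHalfPlane.mdifferentiable_iff]
    refine hg1.congr fun z hz => ?_
    simp [ofComplex_apply_of_im_pos hz]
  have hgb : (fun τ : ℍ => g τ) * b = a := by
    ext τ
    have := hg2 τ τ.2
    simpa using this
  refine ⟨fun τ => g τ, hgm, hgb, ?_⟩
  set G : ℍ → ℂ := fun τ => g τ
  have h1 : b ^ n * (G ^ n + ∑ i ∈ Finset.Icc 1 n, c i * G ^ (n - i)) = 0 := by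
    rw [← hrel, ← hgb, mul_add, mul_pow, mul_comm (b ^ n), Finset.mul_sum]
    congr 1
    refine Finset.sum_congr rfl fun i hi => ?_
    rw [Finset.mem_Icc] at hi
    have h5 : b ^ n = b ^ (n - i) * b ^ i := by rw [← pow_add]; congr 1; omega
    rw [h5]
    ring
  have hpow : ∀ {f : ℍ → ℂ} (_ : MDiff f) (m : ℕ), MDiff (f ^ m) := by
    intro f hf m
    rw [UpperHalfPlane.mdifferentiable_iff] at hf ⊢
    exact hf.pow m
  have hmd : MDiff (G ^ n + ∑ i ∈ Finset.Icc 1 n, c i * G ^ (n - i)) := by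
    refine (hpow hgm n).add ?_
    rw [UpperHalfPlane.mdifferentiable_iff]
    have : (∑ i ∈ Finset.Icc 1 n, c i * G ^ (n - i)) ∘ ofComplex =
        ∑ i ∈ Finset.Icc 1 n, ((c i * G ^ (n - i)) ∘ ofComplex) := by
      ext z
      simp
    rw [this]
    refine DifferentiableOn.sum fun i hi => ?_
    exact UpperHalfPlane.mdifferentiable_iff.1 ((hc i hi).mul (hpow hgm (n - i)))
  rcases (mul_eq_zero_iff (hpow hb n) hmd).1 h1 with h | h
  · refine absurd ?_ hb0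
    ext τ
    exact eq_zero_of_pow_eq_zero (congrFun h τ)
  · exact h

/-! ### Slashing the relation -/

theorem relation_slash {k : ℤ} {n : ℕ} {c : ℕ → ℍ → ℂ} {G : ℍ → ℂ} (γ : SL(2, ℤ))
    (hc : ∀ i ∈ Finset.Icc 1 n, c i ∣[k * i] γ = c i)
    (hG : G ^ n + ∑ i ∈ Finset.Icc 1 n, c i * G ^ (n - i) = 0) (τ : ℍ) :
    ((G ∣[k] γ) τ) ^ n + ∑ i ∈ Finset.Icc 1 n, c i τ * ((G ∣[k] γ) τ) ^ (n - i) = 0 := by
  have h1 := congrFun hG (γ • τ)
  simp only [Pi.add_apply, Pi.pow_apply, Finset.sum_apply, Pi.mul_apply, Pi.zero_apply] at h1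
  have hj : denom γ τ ≠ 0 := denom_ne_zero γ τ
  rw [ModularForm.SL_slash_apply]
  have h2 : ∀ i ∈ Finset.Icc 1 n, c i τ * (G (γ • τ) * denom γ τ ^ (-k)) ^ (n - i) =
      (denom γ τ ^ (-k)) ^ n * (c i (γ • τ) * G (γ • τ) ^ (n - i)) := by
    intro i hi
    have h3 := congrFun (hc i hi) τ
    rw [ModularForm.SL_slash_apply] at h3
    rw [← h3]
    rw [Finset.mem_Icc] at hi
    have h4 : (denom γ τ ^ (-k)) ^ n = (denom γ τ ^ (-k)) ^ i * (denom γ τ ^ (-k)) ^ (n - i) := by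
      rw [← pow_add]; congr 1; omega
    have h5 : denom γ τ ^ (-(k * (i : ℤ))) = (denom γ τ ^ (-k)) ^ i := by
      rw [← neg_mul, zpow_mul, zpow_natCast]
    rw [h4, h5]
    ring
  rw [Finset.sum_congr rfl h2, ← Finset.mul_sum, mul_pow, mul_comm (G (γ • τ) ^ n), ← mul_add, h1,
    mul_zero]

theorem isZeroAtImInfty_of_relation {n : ℕ} {c : ℕ → ℍ → ℂ} {G : ℍ → ℂ}
    (hc : ∀ i ∈ Finset.Icc 1 n, IsZeroAtImInfty (c i))
    (hG : ∀ τ, (G τ) ^ n + ∑ i ∈ Finset.Icc 1 n, c i τ * (G τ) ^ (n - i) = 0) :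
    IsZeroAtImInfty G := by
  rw [IsZeroAtImInfty, ZeroAtFilter, Metric.tendsto_nhds]
  intro ε hε
  have hsum : Tendsto (fun τ => ∑ i ∈ Finset.Icc 1 n, ‖c i τ‖) atImInfty (𝓝 0) := by
    have : (0 : ℝ) = ∑ i ∈ Finset.Icc 1 n, ‖(0 : ℂ)‖ := by simp
    rw [this]
    exact tendsto_finsetSum _ fun i hi => (hc i hi).norm
  have hε' : 0 < min ε 1 := lt_min hε one_pos
  filter_upwards [hsum.eventually (gt_mem_nhds (pow_pos hε' n))] with τ hτ
  rw [dist_zero_right]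
  exact (norm_lt_of_relation hε' (min_le_right _ _) (hG τ) hτ).trans_le (min_le_left _ _)

theorem isBoundedAtImInfty_of_relation {n : ℕ} {c : ℕ → ℍ → ℂ} {G : ℍ → ℂ}
    (hc : ∀ i ∈ Finset.Icc 1 n, IsBoundedAtImInfty (c i))
    (hG : ∀ τ, (G τ) ^ n + ∑ i ∈ Finset.Icc 1 n, c i τ * (G τ) ^ (n - i) = 0) :
    IsBoundedAtImInfty G := by
  have h1 : (fun τ => 1 + ∑ i ∈ Finset.Icc 1 n, ‖c i τ‖) =O[atImInfty] (1 : ℍ → ℝ) := by
    refine (Asymptotics.isBigO_refl _ _).add (Asymptotics.IsBigO.fun_sum fun i hi => ?_)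
    exact (hc i hi).norm_left
  refine Asymptotics.IsBigO.trans ?_ h1
  refine Asymptotics.IsBigO.of_norm_le fun τ => ?_
  exact norm_le_of_relation (hG τ)

section main

variable {𝒢 : Subgroup (GL (Fin 2) ℝ)} [𝒢.IsArithmetic] [𝒢.HasDetPlusMinusOne]

omit [𝒢.IsArithmetic] in
theorem slash_eq_of_mul_eq {k l : ℤ} {G : ℍ → ℂ} (hG : MDiff G) (A : ModularForm 𝒢 (k + l))
    (B : ModularForm 𝒢 l) (hB : B ≠ 0) (hGB : G * ⇑B = ⇑A) (γ : GL (Fin 2) ℝ) (hγ : γ ∈ 𝒢) :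
    G ∣[k] γ = G := by
  have h1 : (G ∣[k] γ) * ⇑B = G * ⇑B := by
    have h2 := A.slash_action_eq' γ hγ
    have h3 := B.slash_action_eq' γ hγ
    change (⇑A) ∣[k + l] γ = ⇑A at h2
    change (⇑B) ∣[l] γ = ⇑B at h3
    rw [← hGB, ModularForm.mul_slash, h3, Subgroup.HasDetPlusMinusOne.abs_det hγ, one_smul] at h2
    exact h2
  have h4 : (G ∣[k] γ - G) * ⇑B = 0 := by
    rw [sub_mul, h1, sub_self]
  have hBne : (⇑B : ℍ → ℂ) ≠ 0 := fun h => hB (DFunLike.coe_injective (by simpa using h))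
  have h5 := (UpperHalfPlane.mul_eq_zero_iff ((hG.slash k γ).sub hG) B.holo').1 h4
  rcases h5 with h5 | h5
  · exact sub_eq_zero.1 h5
  · exact absurd h5 hBne

theorem exists_modularForm_of_relation {k l : ℤ} (A : ModularForm 𝒢 (k + l))
    (B : ModularForm 𝒢 l) (hB : B ≠ 0) {n : ℕ} {c : ℕ → ℍ → ℂ}
    (hc : ∀ i ∈ Finset.Icc 1 n, ∃ F : ModularForm 𝒮ℒ (k * i), ⇑F = c i)
    (hrel : (⇑A) ^ n + ∑ i ∈ Finset.Icc 1 n, c i * (⇑A) ^ (n - i) * (⇑B) ^ i = 0) :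
    ∃ G : ModularForm 𝒢 k, ⇑G * ⇑B = ⇑A ∧
      (⇑G) ^ n + ∑ i ∈ Finset.Icc 1 n, c i * (⇑G) ^ (n - i) = 0 := by
  have hBne : (⇑B : ℍ → ℂ) ≠ 0 := fun h => hB (DFunLike.coe_injective (by simpa using h))
  obtain ⟨G, hG, hGB, hGrel⟩ := exists_holo A.holo' B.holo' hBne
    (fun i hi => by obtain ⟨F, hF⟩ := hc i hi; rw [← hF]; exact F.holo') hrel
  refine ⟨⟨⟨G, fun γ hγ => slash_eq_of_mul_eq hG A B hB hGB γ hγ⟩, hG, ?_⟩, hGB, hGrel⟩
  intro x hx
  rw [Subgroup.IsArithmetic.isCusp_iff_isCusp_SL2Z] at hx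
  rw [OnePoint.isBoundedAt_iff_forall_SL2Z hx]
  intro γ _
  refine isBoundedAtImInfty_of_relation (c := c) (n := n) ?_ (relation_slash γ ?_ hGrel)
  · intro i hi
    obtain ⟨F, hF⟩ := hc i hi
    rw [← hF]
    exact ModularFormClass.bdd_at_infty F
  · intro i hi
    obtain ⟨F, hF⟩ := hc i hi
    rw [← hF]
    exact F.slash_action_eq' _ ⟨γ, rfl⟩

theorem exists_cuspForm_of_relation {k l : ℤ} (A : ModularForm 𝒢 (k + l))
    (B : ModularForm 𝒢 l) (hB : B ≠ 0) {n : ℕ} {c : ℕ → ℍ → ℂ}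
    (hc : ∀ i ∈ Finset.Icc 1 n, ∃ F : CuspForm 𝒮ℒ (k * i), ⇑F = c i)
    (hrel : (⇑A) ^ n + ∑ i ∈ Finset.Icc 1 n, c i * (⇑A) ^ (n - i) * (⇑B) ^ i = 0) :
    ∃ G : CuspForm 𝒢 k, ⇑G * ⇑B = ⇑A ∧
      (⇑G) ^ n + ∑ i ∈ Finset.Icc 1 n, c i * (⇑G) ^ (n - i) = 0 := by
  have hBne : (⇑B : ℍ → ℂ) ≠ 0 := fun h => hB (DFunLike.coe_injective (by simpa using h))
  obtain ⟨G, hG, hGB, hGrel⟩ := exists_holo A.holo' B.holo' hBne
    (fun i hi => by obtain ⟨F, hF⟩ := hc i hi; rw [← hF]; exact F.holo') hrel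
  refine ⟨⟨⟨G, fun γ hγ => slash_eq_of_mul_eq hG A B hB hGB γ hγ⟩, hG, ?_⟩, hGB, hGrel⟩
  intro x hx
  rw [Subgroup.IsArithmetic.isCusp_iff_isCusp_SL2Z] at hx
  rw [OnePoint.isZeroAt_iff_forall_SL2Z hx]
  intro γ _
  refine isZeroAtImInfty_of_relation (c := c) (n := n) ?_ (relation_slash γ ?_ hGrel)
  · intro i hi
    obtain ⟨F, hF⟩ := hc i hi
    rw [← hF]
    exact CuspFormClass.zero_at_infty F
  · intro i hi
    obtain ⟨F, hF⟩ := hc i hi
    rw [← hF]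
    exact F.slash_action_eq' _ ⟨γ, rfl⟩

end main

end Fermat.Agent.IntStr
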