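import Mathlib

/-!
# Bounded denominators via normality of `ℤ⟦X⟧`
-/

set_option autoImplicit false

namespace Fermat.Agent.IntStr

open PowerSeries

/-- `ℤ⟦X⟧` is integrally closed: an integral quotient is a power series. -/
theorem dvd_of_relation {A B : ℤ⟦X⟧} (hB : B ≠ 0) {n : ℕ} {c : ℕ → ℤ⟦X⟧}
    (hrel : A ^ n + ∑ i ∈ Finset.Icc 1 n, c i * A ^ (n - i) * B ^ i = 0) : B ∣ A := by
  let K := FractionRing ℤ⟦X⟧
  let φ := algebraMap ℤ⟦X⟧ K
  have hφ : Function.Injective φ := IsFractionRing.injective _ _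
  have hB' : φ B ≠ 0 := fun h => hB (hφ (by rw [h, map_zero]))
  let x : K := φ A / φ B
  have hrel' : x ^ n + ∑ i ∈ Finset.Icc 1 n, φ (c i) * x ^ (n - i) = 0 := by
    have h1 := congrArg φ hrel
    simp only [map_add, map_pow, map_sum, map_mul, map_zero] at h1
    have hBn : φ B ^ n ≠ 0 := pow_ne_zero _ hB'
    have h2 : φ B ^ n * (x ^ n + ∑ i ∈ Finset.Icc 1 n, φ (c i) * x ^ (n - i)) =
        φ A ^ n + ∑ i ∈ Finset.Icc 1 n, φ (c i) * φ A ^ (n - i) * φ B ^ i := by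
      rw [mul_add, Finset.mul_sum]
      congr 1
      · simp only [x]
        rw [div_pow, mul_div_cancel₀ _ hBn]
      · refine Finset.sum_congr rfl fun i hi => ?_
        rw [Finset.mem_Icc] at hi
        have h5 : φ B ^ n = φ B ^ (n - i) * φ B ^ i := by rw [← pow_add]; congr 1; omega
        rw [h5]
        have h6 : φ B ^ (n - i) * x ^ (n - i) = φ A ^ (n - i) := by
          simp only [x]
          rw [div_pow, mul_div_cancel₀ _ (pow_ne_zero _ hB')]
        rw [← h6]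
        ring
    rw [h1] at h2
    exact (mul_eq_zero.1 h2).resolve_left hBn
  have hint : IsIntegral ℤ⟦X⟧ x := by
    refine ⟨Polynomial.X ^ n + ∑ i ∈ Finset.Icc 1 n, Polynomial.C (c i) * Polynomial.X ^ (n - i),
      ?_, ?_⟩
    · apply Polynomial.monic_X_pow_add
      rcases Nat.eq_zero_or_pos n with rfl | hn
      · simp
      refine lt_of_le_of_lt (Polynomial.degree_sum_le _ _) ?_
      rw [Finset.sup_lt_iff (by exact_mod_cast WithBot.bot_lt_coe n)]
      intro i hi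
      rw [Finset.mem_Icc] at hi
      refine lt_of_le_of_lt (Polynomial.degree_C_mul_X_pow_le _ _) ?_
      exact_mod_cast (by omega : n - i < n)
    · rw [Polynomial.eval₂_add, Polynomial.eval₂_pow, Polynomial.eval₂_X,
        Polynomial.eval₂_finsetSum]
      simp only [Polynomial.eval₂_mul, Polynomial.eval₂_C, Polynomial.eval₂_pow,
        Polynomial.eval₂_X]
      exact hrel'
  obtain ⟨g, hg⟩ := IsIntegrallyClosed.algebraMap_eq_of_integral hint
  refine ⟨g, ?_⟩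
  apply hφ
  rw [map_mul]
  rw [show φ g = x from hg]
  simp only [x]
  rw [mul_div_cancel₀ _ hB']

/-- Coefficientwise application of a `ℚ`-linear functional. -/
noncomputable def mapLin (π : ℂ →ₗ[ℚ] ℚ) : ℂ⟦X⟧ →ₗ[ℚ] ℚ⟦X⟧ where
  toFun P := PowerSeries.mk fun n => π (coeff n P)
  map_add' P Q := by ext n; simp
  map_smul' r P := by
    ext n
    have : coeff n (r • P) = r • coeff n P := rfl
    rw [coeff_mk, this, map_smul, RingHom.id_apply, coeff_smul, coeff_mk]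

@[simp] theorem coeff_mapLin (π : ℂ →ₗ[ℚ] ℚ) (P : ℂ⟦X⟧) (n : ℕ) :
    coeff n (mapLin π P) = π (coeff n P) := by simp [mapLin]

theorem mapLin_mul_map (π : ℂ →ₗ[ℚ] ℚ) (P : ℂ⟦X⟧) (f : ℚ⟦X⟧) :
    mapLin π (P * PowerSeries.map (algebraMap ℚ ℂ) f) = mapLin π P * f := by
  ext n
  rw [coeff_mapLin, coeff_mul, coeff_mul, map_sum]
  refine Finset.sum_congr rfl fun p _ => ?_
  rw [coeff_map, coeff_mapLin]
  have : coeff p.1 P * algebraMap ℚ ℂ (coeff p.2 f) = (coeff p.2 f) • coeff p.1 P := by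
    rw [Algebra.smul_def, mul_comm]
  rw [this, map_smul, smul_eq_mul, mul_comm]

/-- The `ℂ`-span of integral power series. -/
noncomputable def tame : Submodule ℂ ℂ⟦X⟧ :=
  Submodule.span ℂ (Set.range (PowerSeries.map (Int.castRingHom ℂ)))

theorem tame_mul {P Q : ℂ⟦X⟧} (hP : P ∈ tame) (hQ : Q ∈ tame) : P * Q ∈ tame := by
  have h := Submodule.mul_mem_mul hP hQ
  rw [tame, Submodule.span_mul_span] at h
  refine Submodule.span_mono ?_ h
  rintro _ ⟨_, ⟨a, rfl⟩, _, ⟨b, rfl⟩, rfl⟩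
  exact ⟨a * b, by simp⟩

theorem tame_one : (1 : ℂ⟦X⟧) ∈ tame := Submodule.subset_span ⟨1, by simp⟩

theorem tame_pow {P : ℂ⟦X⟧} (hP : P ∈ tame) (n : ℕ) : P ^ n ∈ tame := by
  induction n with
  | zero => simpa using tame_one
  | succ n ih => rw [pow_succ]; exact tame_mul ih hP

theorem intCast_ne_zero {D : ℤ} (hD : D ≠ 0) : (D : ℤ⟦X⟧) ≠ 0 := by
  intro h
  have h1 : (C (R := ℤ)) D = 0 := by simpa using h
  exact hD ((map_eq_zero_iff _ (PowerSeries.C_injective)).1 h1)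

theorem exists_denom_of_tame (π : ℂ →ₗ[ℚ] ℚ) {P : ℂ⟦X⟧} (hP : P ∈ tame) :
    ∃ (D : ℤ) (g : ℤ⟦X⟧), D ≠ 0 ∧
      PowerSeries.map (Int.castRingHom ℚ) g = (D : ℚ⟦X⟧) * mapLin π P := by
  have key : ∀ (a : ℤ⟦X⟧) (l : ℂ), mapLin π (l • PowerSeries.map (Int.castRingHom ℂ) a) =
      C (π l) * PowerSeries.map (Int.castRingHom ℚ) a := by
    intro a l
    ext n
    rw [coeff_mapLin, coeff_smul, coeff_C_mul, coeff_map, coeff_map]
    have : l • (Int.castRingHom ℂ) (coeff n a) = ((coeff n a : ℤ) : ℚ) • l := by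
      rw [Algebra.smul_def ((coeff n a : ℤ) : ℚ) l, smul_eq_mul, mul_comm]
      simp
    rw [this, map_smul]
    simp [mul_comm]
  rw [tame, Submodule.mem_span_set'] at hP
  obtain ⟨m, l, v, rfl⟩ := hP
  choose a ha using fun i => (v i).2
  refine ⟨∏ i, ((π (l i)).den : ℤ), ∑ i, (((π (l i)).num : ℤ⟦X⟧) * ∏ j ∈ Finset.univ.erase i,
    ((π (l j)).den : ℤ⟦X⟧)) * a i, ?_, ?_⟩
  · exact Finset.prod_ne_zero_iff.2 fun i _ => by exact_mod_cast (π (l i)).den_nz
  · rw [map_sum, map_sum, Finset.mul_sum]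
    refine Finset.sum_congr rfl fun i _ => ?_
    rw [← ha i, key, ← Finset.mul_prod_erase Finset.univ _ (Finset.mem_univ i)]
    have h1 : (((π (l i)).num : ℤ) : ℚ⟦X⟧) = ((π (l i)).den : ℚ⟦X⟧) * C (π (l i)) := by
      have h2 : ((π (l i)).num : ℚ) = ((π (l i)).den : ℚ) * π (l i) := by
        rw [mul_comm]; exact (Rat.mul_den_eq_num _).symm
      have h3 := congrArg (C (R := ℚ)) h2
      rw [map_mul] at h3
      simpa using h3
    rw [map_mul, map_mul, map_prod, map_intCast, h1]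
    simp only [map_natCast]
    push_cast
    ring

/-- **Bounded denominators**. -/
theorem exists_int_of_tame_relations {f : ℚ⟦X⟧} {A B : ℂ⟦X⟧} (hA : A ∈ tame) (hB : B ∈ tame)
    (hB0 : B ≠ 0) (hBf : B * PowerSeries.map (algebraMap ℚ ℂ) f = A) {n : ℕ} {c : ℕ → ℂ⟦X⟧}
    (hc : ∀ i ∈ Finset.Icc 1 n, c i ∈ tame)
    (hrel : (PowerSeries.map (algebraMap ℚ ℂ) f) ^ n +
      ∑ i ∈ Finset.Icc 1 n, c i * (PowerSeries.map (algebraMap ℚ ℂ) f) ^ (n - i) = 0) :
    ∃ (D : ℤ) (g : ℤ⟦X⟧), D ≠ 0 ∧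
      PowerSeries.map (Int.castRingHom ℚ) g = (D : ℚ⟦X⟧) * f := by
  classical
  -- first functional: nonvanishing on `B`
  obtain ⟨m, hm⟩ : ∃ m, coeff m B ≠ 0 := by
    by_contra hcon
    push Not at hcon
    exact hB0 (by ext m; simpa using hcon m)
  obtain ⟨π, hπ⟩ : ∃ π : ℂ →ₗ[ℚ] ℚ, π (coeff m B) ≠ 0 := by
    by_contra hcon
    push Not at hcon
    exact hm ((Module.forall_dual_apply_eq_zero_iff ℚ (coeff m B)).1 hcon)
  obtain ⟨D₁, A', hD₁, hA'⟩ := exists_denom_of_tame π hA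
  obtain ⟨D₂, B', hD₂, hB'⟩ := exists_denom_of_tame π hB
  have hBB : mapLin π B ≠ 0 := by
    intro h
    have := congrArg (coeff m) h
    rw [coeff_mapLin] at this
    exact hπ (by simpa using this)
  have hBf' : mapLin π B * f = mapLin π A := by
    rw [← hBf, mapLin_mul_map]
  -- second functional: `π₁ 1 = 1`
  obtain ⟨π₁, hπ₁⟩ : ∃ π₁ : ℂ →ₗ[ℚ] ℚ, π₁ 1 = 1 := by
    obtain ⟨π₀, h0⟩ : ∃ π₀ : ℂ →ₗ[ℚ] ℚ, π₀ 1 ≠ 0 := by
      by_contra hcon
      push Not at hcon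
      exact one_ne_zero ((Module.forall_dual_apply_eq_zero_iff ℚ (1 : ℂ)).1 hcon)
    exact ⟨(π₀ 1)⁻¹ • π₀, by simp [h0]⟩
  have hrel' : f ^ n + ∑ i ∈ Finset.Icc 1 n, mapLin π₁ (c i) * f ^ (n - i) = 0 := by
    have h1 := congrArg (mapLin π₁) hrel
    rw [map_add, map_sum, map_zero] at h1
    rw [← h1]
    congr 1
    · have : (PowerSeries.map (algebraMap ℚ ℂ) f) ^ n =
          1 * PowerSeries.map (algebraMap ℚ ℂ) (f ^ n) := by simp
      rw [this, mapLin_mul_map]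
      have h2 : mapLin π₁ 1 = 1 := by
        ext j
        rw [coeff_mapLin, coeff_one, coeff_one]
        split_ifs <;> simp [hπ₁]
      rw [h2, one_mul]
    · refine Finset.sum_congr rfl fun i _ => ?_
      rw [← map_pow, mapLin_mul_map]
  choose! E c' hE hc' using fun i (hi : i ∈ Finset.Icc 1 n) => exists_denom_of_tame π₁ (hc i hi)
  -- common denominator
  let D : ℤ := ∏ i ∈ Finset.Icc 1 n, E i
  have hD : D ≠ 0 := Finset.prod_ne_zero_iff.2 hE
  let C' : ℕ → ℤ⟦X⟧ := fun i => (D ^ (i - 1) * ∏ j ∈ (Finset.Icc 1 n).erase i, E j : ℤ) * c' i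
  set ι := PowerSeries.map (Int.castRingHom ℚ) with hι
  have hιinj : Function.Injective ι := PowerSeries.map_injective _ Int.cast_injective
  have hC' : ∀ i ∈ Finset.Icc 1 n, ι (C' i) = ((D : ℚ⟦X⟧) ^ i) * mapLin π₁ (c i) := by
    intro i hi
    simp only [C']
    rw [map_mul, hc' i hi, map_intCast]
    have h1 : D = E i * ∏ j ∈ (Finset.Icc 1 n).erase i, E j := by
      simp only [D]
      rw [← Finset.mul_prod_erase _ _ hi]
    have h2 : (D ^ (i - 1) * ∏ j ∈ (Finset.Icc 1 n).erase i, E j) * E i = D ^ i := by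
      have h3 : D ^ i = D ^ (i - 1) * D := by
        rw [Finset.mem_Icc] at hi
        rw [← pow_succ]
        congr 1
        omega
      rw [h3]
      nth_rewrite 3 [h1]
      ring
    rw [← mul_assoc]
    congr 1
    exact_mod_cast congrArg (Int.cast : ℤ → ℚ⟦X⟧) h2
  -- the scaled series
  set F : ℚ⟦X⟧ := (D : ℚ⟦X⟧) * f with hF
  have hFrel : F ^ n + ∑ i ∈ Finset.Icc 1 n, ι (C' i) * F ^ (n - i) = 0 := by
    have h1 : (D : ℚ⟦X⟧) ^ n * (f ^ n + ∑ i ∈ Finset.Icc 1 n, mapLin π₁ (c i) * f ^ (n - i)) =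
        0 := by
      rw [hrel', mul_zero]
    rw [← h1, mul_add, Finset.mul_sum, hF, mul_pow]
    congr 1
    refine Finset.sum_congr rfl fun i hi => ?_
    rw [hC' i hi, mul_pow]
    have h5 : (D : ℚ⟦X⟧) ^ n = (D : ℚ⟦X⟧) ^ (n - i) * (D : ℚ⟦X⟧) ^ i := by
      rw [Finset.mem_Icc] at hi
      rw [← pow_add]; congr 1; omega
    rw [h5]
    ring
  have hB'0 : B' ≠ 0 := by
    intro h
    rw [h, map_zero] at hB'
    have h3 : (D₂ : ℚ⟦X⟧) ≠ 0 := by
      have := hιinj.ne (a₁ := (D₂ : ℤ⟦X⟧)) (a₂ := 0) (intCast_ne_zero hD₂)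
      simpa using this
    exact hBB ((mul_eq_zero.1 hB'.symm).resolve_left h3)
  -- `(D₁ B') F = D₂ D A'`
  have h1 : ι (D₁ * B') * F = ι ((D₂ * D : ℤ) * A') := by
    rw [map_mul, map_mul, map_intCast, map_intCast, hB', hA', ← hBf', hF]
    push_cast
    ring
  have hrelZ : ((D₂ * D : ℤ) * A') ^ n + ∑ i ∈ Finset.Icc 1 n,
      C' i * ((D₂ * D : ℤ) * A') ^ (n - i) * (D₁ * B') ^ i = 0 := by
    apply hιinj
    rw [map_add, map_sum, map_zero, map_pow, ← h1, mul_pow]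
    have h2 : (ι (D₁ * B')) ^ n * (F ^ n + ∑ i ∈ Finset.Icc 1 n, ι (C' i) * F ^ (n - i)) = 0 := by
      rw [hFrel, mul_zero]
    rw [← h2, mul_add, Finset.mul_sum]
    congr 1
    refine Finset.sum_congr rfl fun i hi => ?_
    rw [map_mul, map_mul, map_pow, map_pow, ← h1, mul_pow]
    rw [Finset.mem_Icc] at hi
    have h5 : ι (D₁ * B') ^ n = ι (D₁ * B') ^ (n - i) * ι (D₁ * B') ^ i := by
      rw [← pow_add]; congr 1; omega
    rw [h5]
    ring
  have hne : D₁ * B' ≠ 0 := mul_ne_zero (intCast_ne_zero hD₁) hB'0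
  obtain ⟨g, hg⟩ := dvd_of_relation hne hrelZ
  refine ⟨D, g, hD, ?_⟩
  have h6 : ι (D₁ * B') * ι g = ι (D₁ * B') * F := by
    rw [← map_mul, ← hg, h1]
  exact mul_left_cancel₀ (fun h => hne (hιinj (by rw [h, map_zero]))) h6

end Fermat.Agent.IntStr
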