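import Mathlib
import Fermat.Prelude.Def_FLTPrelim_Modularity

/-!
# Integral structure: level one

`IsL1 k f`: `f : ℍ → ℂ` is (the function of) a level one modular form of weight `k`.
Level one forms are `ℂ`-spanned by level one forms with integral `q`-expansion.
-/

set_option autoImplicit false

open UpperHalfPlane ModularForm MatrixGroups CongruenceSubgroup EisensteinSeries

noncomputable section

namespace Fermat.Agent.IntStr

/-- `f` is a level one modular form of weight `k`. -/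
def IsL1 (k : ℤ) (f : ℍ → ℂ) : Prop := ∃ F : ModularForm 𝒮ℒ k, ⇑F = f

/-- `f` is a level one cusp form of weight `k`. -/
def IsL1Cusp (k : ℤ) (f : ℍ → ℂ) : Prop := ∃ F : CuspForm 𝒮ℒ k, ⇑F = f

/-- integral `q`-expansion -/
def IntQ (f : ℍ → ℂ) : Prop := ∀ n : ℕ, ∃ m : ℤ, (qExpansion 1 f).coeff n = (m : ℂ)

theorem IsL1Cusp.isL1 {k : ℤ} {f : ℍ → ℂ} (h : IsL1Cusp k f) : IsL1 k f := by
  obtain ⟨F, rfl⟩ := h
  exact ⟨(F : ModularForm 𝒮ℒ k), rfl⟩

theorem IsL1.zero (k : ℤ) : IsL1 k 0 := ⟨0, rfl⟩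

theorem IsL1Cusp.zero (k : ℤ) : IsL1Cusp k 0 := ⟨0, rfl⟩

theorem IsL1.one : IsL1 0 1 := ⟨1, rfl⟩

theorem IsL1.add {k : ℤ} {f g : ℍ → ℂ} (hf : IsL1 k f) (hg : IsL1 k g) : IsL1 k (f + g) := by
  obtain ⟨F, rfl⟩ := hf
  obtain ⟨G, rfl⟩ := hg
  exact ⟨F + G, rfl⟩

theorem IsL1.sub {k : ℤ} {f g : ℍ → ℂ} (hf : IsL1 k f) (hg : IsL1 k g) : IsL1 k (f - g) := by
  obtain ⟨F, rfl⟩ := hf
  obtain ⟨G, rfl⟩ := hg
  exact ⟨F - G, by simp⟩

theorem IsL1Cusp.add {k : ℤ} {f g : ℍ → ℂ} (hf : IsL1Cusp k f) (hg : IsL1Cusp k g) :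
    IsL1Cusp k (f + g) := by
  obtain ⟨F, rfl⟩ := hf
  obtain ⟨G, rfl⟩ := hg
  exact ⟨F + G, rfl⟩

theorem IsL1.smul {k : ℤ} {f : ℍ → ℂ} (c : ℂ) (hf : IsL1 k f) : IsL1 k (c • f) := by
  obtain ⟨F, rfl⟩ := hf
  exact ⟨c • F, rfl⟩

theorem IsL1Cusp.smul {k : ℤ} {f : ℍ → ℂ} (c : ℂ) (hf : IsL1Cusp k f) : IsL1Cusp k (c • f) := by
  obtain ⟨F, rfl⟩ := hf
  exact ⟨c • F, rfl⟩

theorem IsL1.neg {k : ℤ} {f : ℍ → ℂ} (hf : IsL1 k f) : IsL1 k (-f) := by
  simpa using hf.smul (-1)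

theorem IsL1.mul {k l : ℤ} {f g : ℍ → ℂ} (hf : IsL1 k f) (hg : IsL1 l g) :
    IsL1 (k + l) (f * g) := by
  obtain ⟨F, rfl⟩ := hf
  obtain ⟨G, rfl⟩ := hg
  exact ⟨F.mul G, rfl⟩

theorem IsL1Cusp.mul_isL1 {k l : ℤ} {f g : ℍ → ℂ} (hf : IsL1Cusp k f) (hg : IsL1 l g) :
    IsL1Cusp (k + l) (f * g) := by
  obtain ⟨F, rfl⟩ := hf
  obtain ⟨G, rfl⟩ := hg
  exact ⟨F.mulModularForm G, rfl⟩

theorem IsL1.cast {k l : ℤ} {f : ℍ → ℂ} (hf : IsL1 k f) (h : k = l) : IsL1 l f := h ▸ hf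

theorem IsL1Cusp.cast {k l : ℤ} {f : ℍ → ℂ} (hf : IsL1Cusp k f) (h : k = l) : IsL1Cusp l f :=
  h ▸ hf

theorem IsL1.sum {ι : Type*} {k : ℤ} {s : Finset ι} {f : ι → ℍ → ℂ}
    (hf : ∀ i ∈ s, IsL1 k (f i)) : IsL1 k (∑ i ∈ s, f i) := by
  classical
  induction s using Finset.induction_on with
  | empty => simpa using IsL1.zero k
  | insert i s hi ih =>
    rw [Finset.sum_insert hi]
    exact (hf i (by simp)).add (ih fun j hj => hf j (by simp [hj]))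

theorem IsL1Cusp.sum {ι : Type*} {k : ℤ} {s : Finset ι} {f : ι → ℍ → ℂ}
    (hf : ∀ i ∈ s, IsL1Cusp k (f i)) : IsL1Cusp k (∑ i ∈ s, f i) := by
  classical
  induction s using Finset.induction_on with
  | empty => simpa using IsL1Cusp.zero k
  | insert i s hi ih =>
    rw [Finset.sum_insert hi]
    exact (hf i (by simp)).add (ih fun j hj => hf j (by simp [hj]))

theorem IsL1.prod {ι : Type*} {s : Finset ι} {k : ι → ℤ} {f : ι → ℍ → ℂ}
    (hf : ∀ i ∈ s, IsL1 (k i) (f i)) : IsL1 (∑ i ∈ s, k i) (∏ i ∈ s, f i) := by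
  classical
  induction s using Finset.induction_on with
  | empty => simpa using IsL1.one
  | insert i s hi ih =>
    rw [Finset.sum_insert hi, Finset.prod_insert hi]
    exact (hf i (by simp)).mul (ih fun j hj => hf j (by simp [hj]))

theorem IsL1.pow {k : ℤ} {f : ℍ → ℂ} (hf : IsL1 k f) (n : ℕ) : IsL1 (n * k) (f ^ n) := by
  have := IsL1.prod (s := Finset.range n) (k := fun _ => k) (f := fun _ => f) (fun _ _ => hf)
  simpa using this

/-! ### q-expansions -/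

theorem IsL1.qExpansion_mul {k l : ℤ} {f g : ℍ → ℂ} (hf : IsL1 k f) (hg : IsL1 l g) :
    qExpansion 1 (f * g) = qExpansion 1 f * qExpansion 1 g := by
  obtain ⟨F, rfl⟩ := hf
  obtain ⟨G, rfl⟩ := hg
  exact ModularForm.qExpansion_mul_coe one_pos one_mem_strictPeriods_SL F G

theorem IsL1.qExpansion_add {k : ℤ} {f g : ℍ → ℂ} (hf : IsL1 k f) (hg : IsL1 k g) :
    qExpansion 1 (f + g) = qExpansion 1 f + qExpansion 1 g := by
  obtain ⟨F, rfl⟩ := hf
  obtain ⟨G, rfl⟩ := hg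
  exact ModularForm.qExpansion_add one_pos one_mem_strictPeriods_SL F G

theorem IsL1.qExpansion_smul {k : ℤ} {f : ℍ → ℂ} (c : ℂ) (hf : IsL1 k f) :
    qExpansion 1 (c • f) = c • qExpansion 1 f := by
  obtain ⟨F, rfl⟩ := hf
  exact ModularForm.qExpansion_smul one_pos one_mem_strictPeriods_SL c F

/-- integral power series -/
def IntP (p : PowerSeries ℂ) : Prop := ∀ n : ℕ, ∃ m : ℤ, p.coeff n = (m : ℂ)

theorem IntP.mul {p r : PowerSeries ℂ} (hp : IntP p) (hr : IntP r) : IntP (p * r) := by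
  intro n
  choose a ha using hp
  choose b hb using hr
  refine ⟨∑ x ∈ Finset.HasAntidiagonal.antidiagonal n, a x.1 * b x.2, ?_⟩
  rw [PowerSeries.coeff_mul]
  push_cast
  exact Finset.sum_congr rfl fun x _ => by rw [ha, hb]

theorem IntP.add {p r : PowerSeries ℂ} (hp : IntP p) (hr : IntP r) : IntP (p + r) := by
  intro n
  obtain ⟨a, ha⟩ := hp n
  obtain ⟨b, hb⟩ := hr n
  exact ⟨a + b, by simp [ha, hb]⟩

theorem IntP.sub {p r : PowerSeries ℂ} (hp : IntP p) (hr : IntP r) : IntP (p - r) := by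
  intro n
  obtain ⟨a, ha⟩ := hp n
  obtain ⟨b, hb⟩ := hr n
  exact ⟨a - b, by simp [ha, hb]⟩

theorem IntP.one : IntP 1 := by
  intro n
  rw [PowerSeries.coeff_one]
  split_ifs
  · exact ⟨1, by simp⟩
  · exact ⟨0, by simp⟩

theorem IntP.pow {p : PowerSeries ℂ} (hp : IntP p) (n : ℕ) : IntP (p ^ n) := by
  induction n with
  | zero => simpa using IntP.one
  | succ n ih => rw [pow_succ]; exact ih.mul hp

theorem intQ_iff {f : ℍ → ℂ} : IntQ f ↔ IntP (qExpansion 1 f) := Iff.rfl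

theorem IsL1.intQ_mul {k l : ℤ} {f g : ℍ → ℂ} (hf : IsL1 k f) (hg : IsL1 l g)
    (hf' : IntQ f) (hg' : IntQ g) : IntQ (f * g) := by
  rw [intQ_iff, hf.qExpansion_mul hg]
  exact IntP.mul hf' hg'

theorem isL1_E₄ : IsL1 4 (E₄ : ModularForm 𝒮ℒ 4) := ⟨E₄, rfl⟩
theorem isL1_E₆ : IsL1 6 (E₆ : ModularForm 𝒮ℒ 6) := ⟨E₆, rfl⟩

theorem intQ_E₄ : IntQ (E₄ : ModularForm 𝒮ℒ 4) := by
  intro n
  rw [E_qExpansion_coeff _ ⟨2, rfl⟩, show bernoulli 4 = -1 / 30 by decide +kernel]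
  split_ifs
  · exact ⟨1, by simp⟩
  · exact ⟨240 * (ArithmeticFunction.sigma 3 n), by push_cast; norm_num⟩

theorem intQ_E₆ : IntQ (E₆ : ModularForm 𝒮ℒ 6) := by
  intro n
  rw [E_qExpansion_coeff _ ⟨3, rfl⟩, show bernoulli 6 = 1 / 42 by decide +kernel]
  split_ifs
  · exact ⟨1, by simp⟩
  · exact ⟨-504 * (ArithmeticFunction.sigma 5 n), by push_cast; norm_num⟩

/-- `1728 Δ = E₄³ - E₆²` as a level one cusp form. -/
def delta' : CuspForm 𝒮ℒ 12 := (1728 : ℂ) • CuspForm.discriminant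

theorem coe_delta' : (⇑delta' : ℍ → ℂ) = (1728 : ℂ) • ModularForm.discriminant := rfl

theorem delta'_apply (z : ℍ) : delta' z = 1728 * ModularForm.discriminant z := rfl

theorem delta'_ne_zero (z : ℍ) : delta' z ≠ 0 := by
  rw [delta'_apply]
  exact mul_ne_zero (by norm_num) (discriminant_ne_zero z)

theorem isL1Cusp_delta' : IsL1Cusp 12 delta' := ⟨delta', rfl⟩

theorem isL1_delta' : IsL1 12 delta' := isL1Cusp_delta'.isL1

theorem coe_delta'_eq : (⇑delta' : ℍ → ℂ) =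
    (E₄ : ModularForm 𝒮ℒ 4) * (E₄ : ModularForm 𝒮ℒ 4) * (E₄ : ModularForm 𝒮ℒ 4)
      - (E₆ : ModularForm 𝒮ℒ 6) * (E₆ : ModularForm 𝒮ℒ 6) := by
  ext z
  have := discriminant_eq_E₄_cube_sub_E₆_sq z
  simp only [delta'_apply, this, Pi.sub_apply, Pi.mul_apply]
  ring

theorem intQ_delta' : IntQ delta' := by
  have h4 := (isL1_E₄.mul isL1_E₄).mul isL1_E₄
  have h6 := isL1_E₆.mul isL1_E₆
  have e4 := isL1_E₄.intQ_mul isL1_E₄ intQ_E₄ intQ_E₄
  have e44 := (isL1_E₄.mul isL1_E₄).intQ_mul isL1_E₄ e4 intQ_E₄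
  have e6 := isL1_E₆.intQ_mul isL1_E₆ intQ_E₆ intQ_E₆
  rw [intQ_iff, coe_delta'_eq, sub_eq_add_neg,
    (show IsL1 12 _ from h4).qExpansion_add (show IsL1 12 _ from h6.neg)]
  rw [show -((⇑(E₆ : ModularForm 𝒮ℒ 6) : ℍ → ℂ) * (E₆ : ModularForm 𝒮ℒ 6)) =
    (-1 : ℂ) • ((⇑(E₆ : ModularForm 𝒮ℒ 6) : ℍ → ℂ) * (E₆ : ModularForm 𝒮ℒ 6)) by simp,
    h6.qExpansion_smul (-1)]
  rw [neg_one_smul, ← sub_eq_add_neg]
  exact IntP.sub e44 e6


/-! ### Spanning by integral forms -/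

/-- `4a + 6b = k` is solvable for even `k ≥ 4`. -/
theorem exists_four_six {k : ℕ} (hk : 4 ≤ k) (hk2 : Even k) : ∃ a b : ℕ, 4 * a + 6 * b = k := by
  obtain ⟨m, rfl⟩ := hk2
  rcases Nat.even_or_odd m with ⟨r, rfl⟩ | ⟨r, rfl⟩
  · exact ⟨r, 0, by ring⟩
  · exact ⟨r - 1, 1, by omega⟩

/-- there is an integral level one form of each even weight `≥ 4` with constant term one. -/
theorem exists_integral_const_one {k : ℕ} (hk : 4 ≤ k) (hk2 : Even k) :
    ∃ F : ModularForm 𝒮ℒ k, IntQ F ∧ (qExpansion 1 F).coeff 0 = 1 := by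
  obtain ⟨a, b, hab⟩ := exists_four_six hk hk2
  have h4 : IsL1 (a * 4) ((E₄ : ModularForm 𝒮ℒ 4) ^ a) := isL1_E₄.pow a
  have h6 : IsL1 (b * 6) ((E₆ : ModularForm 𝒮ℒ 6) ^ b) := isL1_E₆.pow b
  have q4 : qExpansion 1 ((⇑(E₄ : ModularForm 𝒮ℒ 4) : ℍ → ℂ) ^ a) =
      (qExpansion 1 (E₄ : ModularForm 𝒮ℒ 4)) ^ a := by
    rw [← ModularForm.coe_pow, ModularForm.qExpansion_pow one_pos one_mem_strictPeriods_SL]
  have q6 : qExpansion 1 ((⇑(E₆ : ModularForm 𝒮ℒ 6) : ℍ → ℂ) ^ b) =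
      (qExpansion 1 (E₆ : ModularForm 𝒮ℒ 6)) ^ b := by
    rw [← ModularForm.coe_pow, ModularForm.qExpansion_pow one_pos one_mem_strictPeriods_SL]
  obtain ⟨F, hF⟩ := (h4.mul h6).cast (show (a * 4 + b * 6 : ℤ) = (k : ℤ) by
    rw [← hab]; push_cast; ring)
  refine ⟨F, ?_, ?_⟩
  · rw [hF]
    refine h4.intQ_mul h6 ?_ ?_
    · rw [intQ_iff, q4]; exact IntP.pow intQ_E₄ a
    · rw [intQ_iff, q6]; exact IntP.pow intQ_E₆ b
  · rw [hF, h4.qExpansion_mul h6, q4, q6]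
    have c4 := E_qExpansion_coeff_zero (k := 4) (by norm_num) ⟨2, rfl⟩
    have c6 := E_qExpansion_coeff_zero (k := 6) (by norm_num) ⟨3, rfl⟩
    rw [PowerSeries.coeff_zero_eq_constantCoeff] at c4 c6 ⊢
    rw [map_mul, map_pow, map_pow, c4, c6]
    simp

/-- The set of level one forms of weight `k` with integral `q`-expansions, as functions. -/
def intL1 (k : ℤ) : Set (ℍ → ℂ) := {g | IsL1 k g ∧ IntQ g}

/-- The set of level one cusp forms of weight `k` with integral `q`-expansions, as functions. -/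
def intL1Cusp (k : ℤ) : Set (ℍ → ℂ) := {g | IsL1Cusp k g ∧ IntQ g}

/-- multiplication by `1728 Δ` maps the span of integral forms to the span of integral cusp
forms. -/
theorem delta'_mul_mem_span {k : ℤ} {g : ℍ → ℂ} (hg : g ∈ Submodule.span ℂ (intL1 k)) :
    (⇑delta' : ℍ → ℂ) * g ∈ Submodule.span ℂ (intL1Cusp (12 + k)) := by
  induction hg using Submodule.span_induction with
  | mem x hx =>
    exact Submodule.subset_span ⟨isL1Cusp_delta'.mul_isL1 hx.1,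
      isL1_delta'.intQ_mul hx.1 intQ_delta' hx.2⟩
  | zero => simp
  | add x y _ _ hx hy => rw [mul_add]; exact Submodule.add_mem _ hx hy
  | smul c x _ hx => rw [mul_smul_comm]; exact Submodule.smul_mem _ _ hx

theorem isL1Cusp_eq_delta'_mul {k : ℤ} {f : ℍ → ℂ} (hf : IsL1Cusp k f) :
    ∃ g, IsL1 (k - 12) g ∧ f = (⇑delta' : ℍ → ℂ) * g := by
  obtain ⟨F, rfl⟩ := hf
  refine ⟨(1728 : ℂ)⁻¹ • (CuspForm.discriminantEquiv F), IsL1.smul _ ⟨_, rfl⟩, ?_⟩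
  ext z
  have := discriminant_mul_discriminantEquiv_apply F z
  simp only [Pi.mul_apply, Pi.smul_apply, smul_eq_mul, delta'_apply]
  rw [← this]
  ring

theorem intL1Cusp_subset (k : ℤ) : intL1Cusp k ⊆ intL1 k := fun _ h => ⟨h.1.isL1, h.2⟩

/-- level one forms are spanned by the integral ones. -/
theorem isL1_span {k : ℤ} {f : ℍ → ℂ} (hf : IsL1 k f) : f ∈ Submodule.span ℂ (intL1 k) := by
  rcases lt_or_ge k 0 with hk | hk
  · obtain ⟨F, rfl⟩ := hf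
    have := rank_zero_iff_forall_zero.mp (levelOne_neg_weight_rank_zero hk) F
    rw [this]
    simp
  rcases Int.even_or_odd k with hev | hodd
  swap
  · obtain ⟨F, rfl⟩ := hf
    rw [levelOne_odd_weight_eq_zero hodd F]
    simp
  lift k to ℕ using hk
  have hev' : Even k := by exact_mod_cast hev
  clear hev
  induction k using Nat.strong_induction_on generalizing f with
  | _ k ih =>
  rcases Nat.lt_or_ge k 4 with h4 | h4
  · have : k = 0 ∨ k = 2 := by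
      obtain ⟨m, rfl⟩ := hev'
      omega
    rcases this with rfl | rfl
    · obtain ⟨F, rfl⟩ := hf
      obtain ⟨c, hc⟩ := ModularFormClass.levelOne_weight_zero_const F
      rw [hc]
      have : (Function.const ℍ c : ℍ → ℂ) = c • (1 : ℍ → ℂ) := by ext; simp
      rw [this]
      refine Submodule.smul_mem _ _ (Submodule.subset_span ⟨IsL1.one, ?_⟩)
      rw [intQ_iff, qExpansion_one]
      exact IntP.one
    · obtain ⟨F, rfl⟩ := hf
      have := rank_zero_iff_forall_zero.mp levelOne_weight_two_rank_zero F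
      rw [this]
      simp
  · obtain ⟨G, hG, hG0⟩ := exists_integral_const_one h4 hev'
    obtain ⟨F, rfl⟩ := hf
    set c := (qExpansion 1 F).coeff 0 with hc
    obtain ⟨H, hH⟩ := sub_smul_isCuspForm F G hG0
    have hH' : (⇑H : ℍ → ℂ) = ⇑F - c • ⇑G := by
      ext z
      exact DFunLike.congr_fun hH z
    have hFeq : (⇑F : ℍ → ℂ) = c • ⇑G + ⇑H := by rw [hH']; simp
    rw [hFeq]
    refine Submodule.add_mem _ (Submodule.smul_mem _ _ (Submodule.subset_span ⟨⟨G, rfl⟩, hG⟩)) ?_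
    obtain ⟨g, hg, hg'⟩ := isL1Cusp_eq_delta'_mul (k := k) ⟨H, rfl⟩
    rw [hg']
    rcases Nat.lt_or_ge k 12 with h12 | h12
    · obtain ⟨g', rfl⟩ := hg
      have := rank_zero_iff_forall_zero.mp
        (levelOne_neg_weight_rank_zero (show ((k : ℤ) - 12) < 0 by omega)) g'
      rw [this]
      simp
    · have hg2 : IsL1 ((k - 12 : ℕ) : ℤ) g := hg.cast (by omega)
      have := ih (k - 12) (by omega) hg2 (by
        obtain ⟨m, hm⟩ := hev'
        exact ⟨m - 6, by omega⟩)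
      have h3 := Submodule.span_mono (intL1Cusp_subset _) (delta'_mul_mem_span this)
      convert h3 using 3
      omega

/-- level one cusp forms are spanned by the integral ones. -/
theorem isL1Cusp_span {k : ℤ} {f : ℍ → ℂ} (hf : IsL1Cusp k f) :
    f ∈ Submodule.span ℂ (intL1Cusp k) := by
  obtain ⟨g, hg, rfl⟩ := isL1Cusp_eq_delta'_mul hf
  have := delta'_mul_mem_span (isL1_span hg)
  convert this using 3
  omega

theorem isL1_mem_span {k : ℤ} {f : ℍ → ℂ} (h : IsL1 k f) :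
    ∃ (s : Finset (ℍ → ℂ)) (c : (ℍ → ℂ) → ℂ),
      (∀ g ∈ s, IsL1 k g ∧ ∀ n, ∃ m : ℤ, (qExpansion 1 g).coeff n = m) ∧
      f = ∑ g ∈ s, c g • g := by
  obtain ⟨c, hc, hf⟩ := Submodule.mem_span_set.mp (isL1_span h)
  exact ⟨c.support, c, fun g hg => hc hg, hf.symm⟩

theorem isL1Cusp_mem_span {k : ℤ} {f : ℍ → ℂ} (h : IsL1Cusp k f) :
    ∃ (s : Finset (ℍ → ℂ)) (c : (ℍ → ℂ) → ℂ),
      (∀ g ∈ s, IsL1Cusp k g ∧ ∀ n, ∃ m : ℤ, (qExpansion 1 g).coeff n = m) ∧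
      f = ∑ g ∈ s, c g • g := by
  obtain ⟨c, hc, hf⟩ := Submodule.mem_span_set.mp (isL1Cusp_span h)
  exact ⟨c.support, c, fun g hg => hc hg, hf.symm⟩

end Fermat.Agent.IntStr
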