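import Fermat.Agent.IntStr.Descent
import Fermat.Agent.IntStr.Criterion
import Fermat.Agent.IntStr.Integrality
import Fermat.Agent.IntStr.LevelOne
import Fermat.Agent.IntStr.Theta
import Fermat.Prelude.Def_CuspForm_IntegralStructure
import Fermat.Prelude.Thm_ModularForm_sturm_bound_Gamma0

/-!
# Assembly: `Aut(ℂ)`-stability of spaces of cusp forms and the integral structure
-/

set_option autoImplicit false

open UpperHalfPlane ModularForm MatrixGroups CongruenceSubgroup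
open scoped Manifold

noncomputable section

namespace Fermat.Agent.IntStr

/-! ### functions with analytic cusp function -/

/-- analyticity at the cusp -/
def AnQ (f : ℍ → ℂ) : Prop := AnalyticAt ℂ (cuspFunction 1 f) 0

theorem AnQ.add {f g : ℍ → ℂ} (hf : AnQ f) (hg : AnQ g) : AnQ (f + g) := by
  unfold AnQ at *
  rw [cuspFunction_add hf.continuousAt hg.continuousAt]
  exact hf.add hg

theorem AnQ.mul {f g : ℍ → ℂ} (hf : AnQ f) (hg : AnQ g) : AnQ (f * g) := by
  unfold AnQ at *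
  rw [cuspFunction_mul hf.continuousAt hg.continuousAt]
  exact hf.mul hg

theorem AnQ.one : AnQ 1 := by
  have h := ModularFormClass.analyticAt_cuspFunction_zero (1 : ModularForm 𝒮ℒ 0) one_pos
    one_mem_strictPeriods_SL
  exact h

theorem AnQ.zero : AnQ 0 := by
  have h := ModularFormClass.analyticAt_cuspFunction_zero (0 : ModularForm 𝒮ℒ 0) one_pos
    one_mem_strictPeriods_SL
  exact h

theorem AnQ.pow {f : ℍ → ℂ} (hf : AnQ f) (n : ℕ) : AnQ (f ^ n) := by
  induction n with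
  | zero => simpa using AnQ.one
  | succ n ih => rw [pow_succ]; exact ih.mul hf

theorem AnQ.sum {ι : Type*} {s : Finset ι} {f : ι → ℍ → ℂ} (hf : ∀ i ∈ s, AnQ (f i)) :
    AnQ (∑ i ∈ s, f i) := by
  classical
  induction s using Finset.induction_on with
  | empty => simpa using AnQ.zero
  | insert a s ha ih =>
    rw [Finset.sum_insert ha]
    exact (hf a (Finset.mem_insert_self _ _)).add (ih fun i hi => hf i (Finset.mem_insert_of_mem hi))

theorem qExp_add {f g : ℍ → ℂ} (hf : AnQ f) (hg : AnQ g) :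
    qExpansion 1 (f + g) = qExpansion 1 f + qExpansion 1 g :=
  UpperHalfPlane.qExpansion_add hf hg

theorem qExp_mul {f g : ℍ → ℂ} (hf : AnQ f) (hg : AnQ g) :
    qExpansion 1 (f * g) = qExpansion 1 f * qExpansion 1 g :=
  UpperHalfPlane.qExpansion_mul hf hg

theorem qExp_pow {f : ℍ → ℂ} (hf : AnQ f) (n : ℕ) :
    qExpansion 1 (f ^ n) = (qExpansion 1 f) ^ n := by
  induction n with
  | zero => simp [qExpansion_one]
  | succ n ih => rw [pow_succ, qExp_mul (hf.pow n) hf, ih, pow_succ]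

theorem qExp_sum {ι : Type*} {s : Finset ι} {f : ι → ℍ → ℂ} (hf : ∀ i ∈ s, AnQ (f i)) :
    qExpansion 1 (∑ i ∈ s, f i) = ∑ i ∈ s, qExpansion 1 (f i) := by
  classical
  induction s using Finset.induction_on with
  | empty => simp [UpperHalfPlane.qExpansion_zero]
  | insert a s ha ih =>
    rw [Finset.sum_insert ha, Finset.sum_insert ha,
      qExp_add (hf a (Finset.mem_insert_self _ _))
        (AnQ.sum fun i hi => hf i (Finset.mem_insert_of_mem hi)),
      ih fun i hi => hf i (Finset.mem_insert_of_mem hi)]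

/-! ### forms on `Γ₀(N)` as functions -/

/-- `f` is a modular form on `Γ₀(N)` of weight `k`. -/
def IsMN (N : ℕ) (k : ℤ) (f : ℍ → ℂ) : Prop :=
  ∃ F : ModularForm (Gamma0 N : Subgroup (GL (Fin 2) ℝ)) k, ⇑F = f

/-- `f` is a cusp form on `Γ₀(N)` of weight `k`. -/
def IsCN (N : ℕ) (k : ℤ) (f : ℍ → ℂ) : Prop :=
  ∃ F : CuspForm (Gamma0 N : Subgroup (GL (Fin 2) ℝ)) k, ⇑F = f

variable {N : ℕ} [NeZero N] {k l : ℤ} {f g : ℍ → ℂ}

omit [NeZero N] in
theorem IsMN.anQ (h : IsMN N k f) : AnQ f := by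
  obtain ⟨F, rfl⟩ := h
  exact ModularFormClass.analyticAt_cuspFunction_zero F one_pos
    (CongruenceSubgroup.one_mem_strictPeriods_Gamma0 N)

theorem IsL1.anQ (h : IsL1 k f) : AnQ f := by
  obtain ⟨F, rfl⟩ := h
  exact ModularFormClass.analyticAt_cuspFunction_zero F one_pos one_mem_strictPeriods_SL

theorem IsL1.isMN (N : ℕ) (h : IsL1 k f) : IsMN N k f := by
  obtain ⟨F, rfl⟩ := h
  exact ⟨restrictMod (Gamma0_le_SL N) F, rfl⟩

omit [NeZero N] in
theorem IsCN.isMN (h : IsCN N k f) : IsMN N k f := by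
  obtain ⟨F, rfl⟩ := h
  exact ⟨(F : ModularForm _ k), rfl⟩

omit [NeZero N] in
theorem IsMN.add (hf : IsMN N k f) (hg : IsMN N k g) : IsMN N k (f + g) := by
  obtain ⟨F, rfl⟩ := hf
  obtain ⟨G, rfl⟩ := hg
  exact ⟨F + G, rfl⟩

omit [NeZero N] in
theorem IsMN.smul (c : ℂ) (hf : IsMN N k f) : IsMN N k (c • f) := by
  obtain ⟨F, rfl⟩ := hf
  exact ⟨c • F, rfl⟩

omit [NeZero N] in
theorem IsMN.mul (hf : IsMN N k f) (hg : IsMN N l g) : IsMN N (k + l) (f * g) := by
  obtain ⟨F, rfl⟩ := hf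
  obtain ⟨G, rfl⟩ := hg
  exact ⟨F.mul G, rfl⟩

omit [NeZero N] in
theorem IsMN.zero (N : ℕ) (k : ℤ) : IsMN N k 0 := ⟨0, rfl⟩

omit [NeZero N] in
theorem IsMN.one (N : ℕ) : IsMN N 0 1 := ⟨1, rfl⟩

omit [NeZero N] in
theorem IsMN.cast (hf : IsMN N k f) (h : k = l) : IsMN N l f := h ▸ hf

omit [NeZero N] in
theorem IsMN.pow (hf : IsMN N k f) (n : ℕ) : IsMN N (n * k) (f ^ n) := by
  induction n with
  | zero => exact (IsMN.one N).cast (by simp)
  | succ n ih => rw [pow_succ]; exact (ih.mul hf).cast (by push_cast; ring)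

omit [NeZero N] in
theorem IsMN.sum {ι : Type*} {s : Finset ι} {f : ι → ℍ → ℂ} (hf : ∀ i ∈ s, IsMN N k (f i)) :
    IsMN N k (∑ i ∈ s, f i) := by
  classical
  induction s using Finset.induction_on with
  | empty => simpa using IsMN.zero N k
  | insert a s ha ih =>
    rw [Finset.sum_insert ha]
    exact (hf a (Finset.mem_insert_self _ _)).add (ih fun i hi => hf i (Finset.mem_insert_of_mem hi))

omit [NeZero N] in
theorem IsMN.eq_zero_of_qExp (hf : IsMN N k f) (h : qExpansion 1 f = 0) : f = 0 := by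
  obtain ⟨F, rfl⟩ := hf
  have := (ModularForm.qExpansion_eq_zero_iff one_pos
    (CongruenceSubgroup.one_mem_strictPeriods_Gamma0 N) F).1 h
  rw [this]
  rfl

omit [NeZero N] in
theorem IsMN.eq_of_qExp (hf : IsMN N k f) (hg : IsMN N k g)
    (h : qExpansion 1 f = qExpansion 1 g) : f = g := by
  have h1 : IsMN N k (f - g) := by
    have := hf.add (hg.smul (-1))
    simpa [sub_eq_add_neg] using this
  have h2 : qExpansion 1 (f - g) = 0 := by
    rw [UpperHalfPlane.qExpansion_sub hf.anQ hg.anQ, h, sub_self]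
  exact sub_eq_zero.1 (h1.eq_zero_of_qExp h2)

/-! ### The span of integral forms -/

/-- the `ℂ`-span of the integral forms -/
def VN (N : ℕ) (k : ℤ) : Submodule ℂ (ℍ → ℂ) :=
  Submodule.span ℂ {g | IsMN N k g ∧ IntQ g}

omit [NeZero N] in
theorem VN.isMN (hf : f ∈ VN N k) : IsMN N k f := by
  refine Submodule.span_induction (fun x hx => hx.1) (IsMN.zero N k) (fun x y _ _ => IsMN.add)
    (fun c x _ => IsMN.smul c) hf

theorem IntQ.exists_map (h : IntQ f) :
    ∃ a : PowerSeries ℤ, PowerSeries.map (Int.castRingHom ℂ) a = qExpansion 1 f := by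
  choose m hm using h
  exact ⟨PowerSeries.mk m, by ext n; simp [hm]⟩

omit [NeZero N] in
theorem VN.tame (hf : f ∈ VN N k) : qExpansion 1 f ∈ tame := by
  have : f ∈ VN N k ∧ qExpansion 1 f ∈ IntStr.tame := by
    refine Submodule.span_induction (p := fun x _ => x ∈ VN N k ∧ qExpansion 1 x ∈ IntStr.tame)
      ?_ ?_ ?_ ?_ hf
    · intro x hx
      refine ⟨Submodule.subset_span hx, ?_⟩
      obtain ⟨a, ha⟩ := hx.2.exists_map
      rw [← ha]
      exact Submodule.subset_span ⟨a, rfl⟩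
    · refine ⟨zero_mem _, ?_⟩
      rw [UpperHalfPlane.qExpansion_zero]
      exact zero_mem _
    · rintro x y _ _ ⟨hx, hx'⟩ ⟨hy, hy'⟩
      refine ⟨add_mem hx hy, ?_⟩
      rw [qExp_add (VN.isMN hx).anQ (VN.isMN hy).anQ]
      exact add_mem hx' hy'
    · rintro c x _ ⟨hx, hx'⟩
      refine ⟨Submodule.smul_mem _ _ hx, ?_⟩
      rw [UpperHalfPlane.qExpansion_smul (VN.isMN hx).anQ]
      exact Submodule.smul_mem _ _ hx'
  exact this.2

omit [NeZero N] in
theorem VN.mul (hf : f ∈ VN N k) (hg : g ∈ VN N l) : f * g ∈ VN N (k + l) := by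
  refine Submodule.span_induction ?_ ?_ ?_ ?_ hf
  · intro x hx
    refine Submodule.span_induction ?_ ?_ ?_ ?_ hg
    · intro y hy
      refine Submodule.subset_span ⟨hx.1.mul hy.1, ?_⟩
      rw [intQ_iff, qExp_mul hx.1.anQ hy.1.anQ]
      exact IntP.mul hx.2 hy.2
    · rw [mul_zero]; exact zero_mem _
    · intro y z _ _ hy hz
      rw [mul_add]; exact add_mem hy hz
    · intro c y _ hy
      rw [mul_smul_comm]; exact Submodule.smul_mem _ _ hy
  · rw [zero_mul]; exact zero_mem _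
  · intro y z _ _ hy hz
    rw [add_mul]; exact add_mem hy hz
  · intro c y _ hy
    rw [smul_mul_assoc]; exact Submodule.smul_mem _ _ hy

omit [NeZero N] in
theorem VN.one : (1 : ℍ → ℂ) ∈ VN N 0 := by
  refine Submodule.subset_span ⟨IsMN.one N, ?_⟩
  rw [intQ_iff, qExpansion_one]
  exact IntP.one

omit [NeZero N] in
theorem VN.cast (hf : f ∈ VN N k) (h : k = l) : f ∈ VN N l := h ▸ hf

omit [NeZero N] in
theorem VN.pow (hf : f ∈ VN N k) (n : ℕ) : f ^ n ∈ VN N (n * k) := by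
  induction n with
  | zero => rw [pow_zero]; exact VN.cast VN.one (by simp)
  | succ n ih => rw [pow_succ]; exact VN.cast (VN.mul ih hf) (by push_cast; ring)

theorem IsL1.mem_VN (N : ℕ) (h : IsL1 k f) : f ∈ VN N k := by
  refine Submodule.span_mono ?_ (isL1_span h)
  rintro g ⟨h1, h2⟩
  exact ⟨h1.isMN N, h2⟩

theorem theta_mem_VN (N : ℕ) [NeZero N] : (⇑(theta N) : ℍ → ℂ) ∈ VN N 12 :=
  Submodule.subset_span ⟨⟨(theta N : ModularForm _ 12), rfl⟩, intQ_theta N⟩

omit [NeZero N] in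
/-- conjugates of elements of `VN`. -/
theorem VN.conj (σ : ℂ →+* ℂ) (hf : f ∈ VN N k) :
    ∃ g ∈ VN N k, qExpansion 1 g = PowerSeries.map σ (qExpansion 1 f) := by
  have : f ∈ VN N k ∧ ∃ g ∈ VN N k, qExpansion 1 g = PowerSeries.map σ (qExpansion 1 f) := by
    refine Submodule.span_induction (p := fun x _ => x ∈ VN N k ∧
      ∃ g ∈ VN N k, qExpansion 1 g = PowerSeries.map σ (qExpansion 1 x)) ?_ ?_ ?_ ?_ hf
    · intro x hx
      refine ⟨Submodule.subset_span hx, x, Submodule.subset_span hx, ?_⟩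
      ext n
      obtain ⟨m, hm⟩ := hx.2 n
      rw [PowerSeries.coeff_map, hm]
      simp
    · refine ⟨zero_mem _, 0, zero_mem _, ?_⟩
      rw [UpperHalfPlane.qExpansion_zero, map_zero]
    · rintro x y _ _ ⟨hx, x', hx', ex⟩ ⟨hy, y', hy', ey⟩
      refine ⟨add_mem hx hy, x' + y', add_mem hx' hy', ?_⟩
      rw [qExp_add (VN.isMN hx).anQ (VN.isMN hy).anQ, qExp_add (VN.isMN hx').anQ (VN.isMN hy').anQ,
        ex, ey, map_add]
    · rintro c x _ ⟨hx, x', hx', ex⟩
      refine ⟨Submodule.smul_mem _ _ hx, σ c • x', Submodule.smul_mem _ _ hx', ?_⟩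
      rw [UpperHalfPlane.qExpansion_smul (VN.isMN hx).anQ,
        UpperHalfPlane.qExpansion_smul (VN.isMN hx').anQ, ex]
      ext n
      simp
  exact this.2

/-- conjugates of level one cusp forms -/
theorem IsL1Cusp.conj (σ : ℂ →+* ℂ) (hf : IsL1Cusp k f) :
    ∃ g, IsL1Cusp k g ∧ qExpansion 1 g = PowerSeries.map σ (qExpansion 1 f) := by
  have : IsL1Cusp k f ∧ ∃ g, IsL1Cusp k g ∧
      qExpansion 1 g = PowerSeries.map σ (qExpansion 1 f) := by
    refine Submodule.span_induction (p := fun x _ => IsL1Cusp k x ∧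
      ∃ g, IsL1Cusp k g ∧ qExpansion 1 g = PowerSeries.map σ (qExpansion 1 x)) ?_ ?_ ?_ ?_
      (isL1Cusp_span hf)
    · intro x hx
      refine ⟨hx.1, x, hx.1, ?_⟩
      ext n
      obtain ⟨m, hm⟩ := hx.2 n
      rw [PowerSeries.coeff_map, hm]
      simp
    · refine ⟨IsL1Cusp.zero k, 0, IsL1Cusp.zero k, ?_⟩
      rw [UpperHalfPlane.qExpansion_zero, map_zero]
    · rintro x y _ _ ⟨hx, x', hx', ex⟩ ⟨hy, y', hy', ey⟩
      refine ⟨hx.add hy, x' + y', hx'.add hy', ?_⟩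
      rw [qExp_add hx.isL1.anQ hy.isL1.anQ, qExp_add hx'.isL1.anQ hy'.isL1.anQ,
        ex, ey, map_add]
    · rintro c x _ ⟨hx, x', hx', ex⟩
      refine ⟨hx.smul c, σ c • x', hx'.smul _, ?_⟩
      rw [UpperHalfPlane.qExpansion_smul hx.isL1.anQ,
        UpperHalfPlane.qExpansion_smul hx'.isL1.anQ, ex]
      ext n
      simp
  exact this.2

/-! ### Algebraic relations of a form over level one -/

/-- The relations satisfied by a form `f` on `Γ₀(N)` of weight `k`: integral over level one cusp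
forms, and a quotient of forms in the span of integral forms. -/
structure HasRel (N : ℕ) (k : ℤ) (f : ℍ → ℂ) : Prop where
  monic : ∃ (n : ℕ) (c : ℕ → ℍ → ℂ), 0 < n ∧ (∀ i ∈ Finset.Icc 1 n, IsL1Cusp (k * i) (c i)) ∧
    f ^ n + ∑ i ∈ Finset.Icc 1 n, c i * f ^ (n - i) = 0
  quot : ∃ (l : ℤ) (A B : ℍ → ℂ), A ∈ VN N (k + l) ∧ B ∈ VN N l ∧ B ≠ 0 ∧ B * f = A

theorem qExp_relation {n : ℕ} {c : ℕ → ℍ → ℂ} {A B : ℍ → ℂ} (hA : AnQ A) (hB : AnQ B)
    (hc : ∀ i ∈ Finset.Icc 1 n, AnQ (c i)) :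
    qExpansion 1 (A ^ n + ∑ i ∈ Finset.Icc 1 n, c i * A ^ (n - i) * B ^ i) =
      (qExpansion 1 A) ^ n + ∑ i ∈ Finset.Icc 1 n,
        qExpansion 1 (c i) * (qExpansion 1 A) ^ (n - i) * (qExpansion 1 B) ^ i := by
  have h1 : ∀ i ∈ Finset.Icc 1 n, AnQ (c i * A ^ (n - i) * B ^ i) := fun i hi =>
    ((hc i hi).mul (hA.pow _)).mul (hB.pow _)
  rw [qExp_add (hA.pow n) (AnQ.sum h1), qExp_pow hA, qExp_sum h1]
  congr 1
  refine Finset.sum_congr rfl fun i hi => ?_
  rw [qExp_mul ((hc i hi).mul (hA.pow _)) (hB.pow _), qExp_mul (hc i hi) (hA.pow _), qExp_pow hA,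
    qExp_pow hB]

/-- **`Aut(ℂ)`-stability** of the space of cusp forms. -/
theorem exists_conj_of_hasRel (σ : ℂ →+* ℂ) (hf : IsCN N k f) (hrel : HasRel N k f) :
    ∃ g, IsCN N k g ∧ qExpansion 1 g = PowerSeries.map σ (qExpansion 1 f) := by
  obtain ⟨n, c, hn, hc, hmonic⟩ := hrel.monic
  obtain ⟨l, A, B, hA, hB, hB0, hBf⟩ := hrel.quot
  -- homogeneous relation
  have hhom : A ^ n + ∑ i ∈ Finset.Icc 1 n, c i * A ^ (n - i) * B ^ i = 0 := by
    have h1 : B ^ n * (f ^ n + ∑ i ∈ Finset.Icc 1 n, c i * f ^ (n - i)) = 0 := by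
      rw [hmonic, mul_zero]
    rw [← h1, ← hBf, mul_add, mul_pow, Finset.mul_sum]
    congr 1
    refine Finset.sum_congr rfl fun i hi => ?_
    rw [Finset.mem_Icc] at hi
    have h5 : B ^ n = B ^ (n - i) * B ^ i := by rw [← pow_add]; congr 1; omega
    rw [h5]
    ring
  -- conjugates
  obtain ⟨A', hA', eA⟩ := VN.conj σ hA
  obtain ⟨B', hB', eB⟩ := VN.conj σ hB
  choose! c' hc' ec using fun i (hi : i ∈ Finset.Icc 1 n) => (hc i hi).conj σ
  have hq := qExp_relation (n := n) (c := c) (VN.isMN hA).anQ (VN.isMN hB).anQ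
    (fun i hi => (hc i hi).isL1.anQ)
  rw [hhom, UpperHalfPlane.qExpansion_zero] at hq
  have hq' := qExp_relation (n := n) (c := c') (VN.isMN hA').anQ (VN.isMN hB').anQ
    (fun i hi => (hc' i hi).isL1.anQ)
  have hmap := congrArg (PowerSeries.map σ) hq
  rw [map_zero, map_add, map_sum, map_pow, ← eA] at hmap
  have hsum : ∑ i ∈ Finset.Icc 1 n, (PowerSeries.map σ) (qExpansion 1 (c i) *
      qExpansion 1 A ^ (n - i) * qExpansion 1 B ^ i) = ∑ i ∈ Finset.Icc 1 n,
        qExpansion 1 (c' i) * (qExpansion 1 A') ^ (n - i) * (qExpansion 1 B') ^ i := by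
    refine Finset.sum_congr rfl fun i hi => ?_
    rw [map_mul, map_mul, map_pow, map_pow, ← eA, ← eB, ← ec i hi]
  rw [hsum, ← hq'] at hmap
  -- the conjugate relation as functions
  have hM : IsMN N (n * (k + l)) (A' ^ n + ∑ i ∈ Finset.Icc 1 n, c' i * A' ^ (n - i) * B' ^ i) := by
    refine ((VN.isMN hA').pow n).add (IsMN.sum fun i hi => ?_)
    refine (((((hc' i hi).isL1.isMN N).mul ((VN.isMN hA').pow (n - i))).mul
      ((VN.isMN hB').pow i))).cast ?_
    rw [Finset.mem_Icc] at hi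
    have : ((n - i : ℕ) : ℤ) = (n : ℤ) - i := by omega
    rw [this]
    ring
  have hrel' := hM.eq_zero_of_qExp hmap.symm
  obtain ⟨FA, hFA⟩ := VN.isMN hA'
  obtain ⟨FB, hFB⟩ := VN.isMN hB'
  have hqB : qExpansion 1 B ≠ 0 := fun h => hB0 ((VN.isMN hB).eq_zero_of_qExp h)
  have hqB' : qExpansion 1 B' ≠ 0 := by
    rw [eB]
    intro h
    apply hqB
    have : Function.Injective (PowerSeries.map σ) := PowerSeries.map_injective _ σ.injective
    exact this (by rw [h, map_zero])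
  have hFB0 : FB ≠ 0 := by
    rintro rfl
    apply hqB'
    rw [← hFB]
    exact UpperHalfPlane.qExpansion_zero 1
  obtain ⟨G, hG, -⟩ := exists_cuspForm_of_relation (𝒢 := (Gamma0 N : Subgroup (GL (Fin 2) ℝ)))
    FA FB hFB0 (n := n) (c := c') hc' (by rw [hFA, hFB]; exact hrel')
  refine ⟨G, ⟨G, rfl⟩, ?_⟩
  have hGan : AnQ G := (IsCN.isMN (N := N) ⟨G, rfl⟩).anQ
  rw [hFA, hFB] at hG
  have h1 : qExpansion 1 (G : ℍ → ℂ) * qExpansion 1 B' = qExpansion 1 A' := by
    rw [← qExp_mul hGan (VN.isMN hB').anQ, hG]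
  have h2 : qExpansion 1 B * qExpansion 1 f = qExpansion 1 A := by
    rw [← qExp_mul (VN.isMN hB).anQ hf.isMN.anQ, hBf]
  have h3 : qExpansion 1 (G : ℍ → ℂ) * qExpansion 1 B' =
      PowerSeries.map σ (qExpansion 1 f) * qExpansion 1 B' := by
    rw [h1, eA, ← h2, map_mul, eB, mul_comm]
  exact mul_right_cancel₀ hqB' h3

/-! ### The `q`-expansion map and finite-dimensionality -/

/-- the `q`-expansion as a linear map to sequences -/
def qSeq (N : ℕ) (k : ℤ) :
    CuspForm (Gamma0 N : Subgroup (GL (Fin 2) ℝ)) k →ₗ[ℂ] (ℕ → ℂ) where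
  toFun f n := (qExpansion 1 (f : ℍ → ℂ)).coeff n
  map_add' f g := by
    funext n
    have h : (⇑(f + g) : ℍ → ℂ) = ⇑f + ⇑g := rfl
    rw [h, qExp_add (IsCN.isMN (N := N) ⟨f, rfl⟩).anQ (IsCN.isMN (N := N) ⟨g, rfl⟩).anQ]
    simp
  map_smul' c f := by
    funext n
    have h : (⇑(c • f) : ℍ → ℂ) = c • ⇑f := rfl
    rw [h, UpperHalfPlane.qExpansion_smul (IsCN.isMN (N := N) ⟨f, rfl⟩).anQ]
    simp

omit [NeZero N] in
@[simp] theorem qSeq_apply (f : CuspForm (Gamma0 N : Subgroup (GL (Fin 2) ℝ)) k) (n : ℕ) :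
    qSeq N k f n = (qExpansion 1 (f : ℍ → ℂ)).coeff n := rfl

omit [NeZero N] in
theorem qSeq_injective : Function.Injective (qSeq N k) := by
  refine (injective_iff_map_eq_zero _).mpr fun f hf => ?_
  have h : (⇑f : ℍ → ℂ) = 0 := by
    refine IsMN.eq_zero_of_qExp (IsCN.isMN (N := N) ⟨f, rfl⟩) ?_
    ext n
    exact congrFun hf n
  exact DFunLike.coe_injective h

/-- Spaces of cusp forms on `Γ₀(N)` are finite-dimensional. -/
instance finiteDimensional_cuspForm (N : ℕ) [NeZero N] (k : ℤ) :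
    FiniteDimensional ℂ (CuspForm (Gamma0 N : Subgroup (GL (Fin 2) ℝ)) k) := by
  let B : ℕ := (k * (Gamma0 N).index).toNat / 12
  let T : CuspForm (Gamma0 N : Subgroup (GL (Fin 2) ℝ)) k →ₗ[ℂ] (Fin (B + 1) → ℂ) :=
    (LinearMap.funLeft ℂ ℂ (fun i : Fin (B + 1) => (i : ℕ))).comp (qSeq N k)
  refine FiniteDimensional.of_injective T ?_
  refine (injective_iff_map_eq_zero _).mpr fun f hf => ?_
  have h1 : (ModularFormClass.modularForm f : ModularForm (Gamma0 N) k) = 0 := by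
    refine ModularForm.sturm_bound_Gamma0 N _ fun n hn => ?_
    exact congrFun hf ⟨n, Nat.lt_succ_of_le hn⟩
  have h2 : (⇑f : ℍ → ℂ) = 0 := by
    have := congrArg (fun F : ModularForm (Gamma0 N : Subgroup (GL (Fin 2) ℝ)) k =>
      (⇑F : ℍ → ℂ)) h1
    exact this
  exact DFunLike.coe_injective h2

omit [NeZero N] in
/-- A form satisfying the relations with rational `q`-expansion has bounded denominators. -/
theorem exists_zsmul_integral (f : CuspForm (Gamma0 N : Subgroup (GL (Fin 2) ℝ)) k)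
    (hrel : HasRel N k f) (hrat : ∀ n, ∃ r : ℚ, (qExpansion 1 (f : ℍ → ℂ)).coeff n = (r : ℂ)) :
    ∃ D : ℤ, D ≠ 0 ∧ ∀ n, ∃ m : ℤ, (qExpansion 1 (⇑((D : ℂ) • f) : ℍ → ℂ)).coeff n = (m : ℂ) := by
  obtain ⟨n, c, hn, hc, hmonic⟩ := hrel.monic
  obtain ⟨l, A, B, hA, hB, hB0, hBf⟩ := hrel.quot
  choose r hr using hrat
  let F : PowerSeries ℚ := PowerSeries.mk r
  have hfM : IsMN N k f := IsCN.isMN ⟨f, rfl⟩
  have hF : PowerSeries.map (algebraMap ℚ ℂ) F = qExpansion 1 (f : ℍ → ℂ) := by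
    ext j
    rw [PowerSeries.coeff_map, hr]
    simp [F]
  have hq := qExp_relation (n := n) (c := c) (A := (f : ℍ → ℂ)) (B := 1) hfM.anQ AnQ.one
    (fun i hi => (hc i hi).isL1.anQ)
  simp only [one_pow, mul_one] at hq
  rw [hmonic, UpperHalfPlane.qExpansion_zero] at hq
  simp only [qExpansion_one, one_pow, mul_one] at hq
  obtain ⟨D, g, hD, hg⟩ := exists_int_of_tame_relations (f := F) (A := qExpansion 1 A)
    (B := qExpansion 1 B) (VN.tame hA) (VN.tame hB)
    (fun h => hB0 ((VN.isMN hB).eq_zero_of_qExp h))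
    (by rw [hF, ← qExp_mul (VN.isMN hB).anQ hfM.anQ, hBf]) (n := n)
    (c := fun i => qExpansion 1 (c i))
    (fun i hi => VN.tame ((hc i hi).isL1.mem_VN N)) (by rw [hF]; exact hq.symm)
  refine ⟨D, hD, fun j => ⟨g.coeff j, ?_⟩⟩
  have h1 : (⇑((D : ℂ) • f) : ℍ → ℂ) = (D : ℂ) • ⇑f := rfl
  rw [h1, UpperHalfPlane.qExpansion_smul hfM.anQ, PowerSeries.coeff_smul, hr]
  have h2 := congrArg (PowerSeries.coeff j) hg
  rw [PowerSeries.coeff_map] at h2
  have h4 : PowerSeries.coeff j ((D : PowerSeries ℚ) * F) = (D : ℚ) * r j := by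
    have : (D : PowerSeries ℚ) = PowerSeries.C (D : ℚ) := by simp
    rw [this, PowerSeries.coeff_C_mul]
    simp [F]
  rw [h4] at h2
  have h5 := congrArg (fun x : ℚ => (x : ℂ)) h2
  simp only [eq_intCast, Rat.cast_intCast, Rat.cast_mul] at h5
  rw [smul_eq_mul, ← h5]

/-- **The integral structure** on spaces of cusp forms, from the relations. -/
theorem hasIntegralStructure_of_hasRel (N : ℕ) [NeZero N] (k : ℤ)
    (h : ∀ f : CuspForm (Gamma0 N : Subgroup (GL (Fin 2) ℝ)) k, HasRel N k f) :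
    CuspForm.HasIntegralStructure N k := by
  let V : Submodule ℂ (ℕ → ℂ) := LinearMap.range (qSeq N k)
  have hV : ∀ σ : ℂ ≃+* ℂ, ∀ v ∈ V, (fun n => σ (v n)) ∈ V := by
    rintro σ _ ⟨f, rfl⟩
    obtain ⟨g, ⟨G, rfl⟩, hg⟩ := exists_conj_of_hasRel (N := N) (k := k) (σ : ℂ →+* ℂ) ⟨f, rfl⟩ (h f)
    refine ⟨G, ?_⟩
    funext n
    rw [qSeq_apply, hg, PowerSeries.coeff_map]
    rfl
  have hspan := span_rational_of_stable V hV
  rw [CuspForm.HasIntegralStructure, eq_top_iff]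
  rintro f -
  have h1 : qSeq N k f ∈ V := ⟨f, rfl⟩
  rw [← hspan] at h1
  have h2 : Submodule.span ℂ {v | v ∈ V ∧ ∀ n, ∃ r : ℚ, v n = (r : ℂ)} ≤
      (Submodule.span ℂ (CuspForm.intLattice N k :
        Set (CuspForm (Gamma0 N : Subgroup (GL (Fin 2) ℝ)) k))).map (qSeq N k) := by
    rw [Submodule.span_le]
    rintro _ ⟨⟨g, rfl⟩, hg⟩
    refine ⟨g, ?_, rfl⟩
    obtain ⟨D, hD, hDg⟩ := exists_zsmul_integral g (h g) hg
    have h3 : g = (D : ℂ)⁻¹ • ((D : ℂ) • g) := by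
      rw [smul_smul, inv_mul_cancel₀ (by exact_mod_cast hD), one_smul]
    rw [h3]
    refine Submodule.smul_mem _ _ (Submodule.subset_span ?_)
    exact Submodule.subset_span hDg
  obtain ⟨g, hg, hgf⟩ := h2 h1
  rw [← qSeq_injective hgf]
  exact hg

end Fermat.Agent.IntStr
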