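import Mathlib
import Fermat.Agent.IntStr.AutC

/-!
# Galois descent for finite-dimensional `Aut(ℂ)`-stable spaces of sequences
-/

set_option autoImplicit false

namespace Fermat.Agent.IntStr

open Module

/-- A finite-dimensional space of functions has a set of coordinates. -/
theorem exists_coordinates {K ι : Type*} [Field K] (V : Submodule K (ι → K))
    [FiniteDimensional K V] :
    ∃ (d : ℕ) (t : Fin d → ι) (v : Fin d → V),
      (∀ i j, (v i : ι → K) (t j) = if i = j then 1 else 0) ∧
      ∀ w : V, w = ∑ i, (w : ι → K) (t i) • v i := by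
  classical
  let E : ι → Dual K V := fun i => (LinearMap.proj i).comp V.subtype
  have hE : ∀ i (w : V), E i w = (w : ι → K) i := fun i w => rfl
  have hspan : ⊤ ≤ Submodule.span K (Set.range E) := by
    rw [top_le_iff, ← Subspace.dualCoannihilator_dualAnnihilator_eq (W := Submodule.span K (Set.range E))]
    have : (Submodule.span K (Set.range E)).dualCoannihilator = ⊥ := by
      rw [eq_bot_iff]
      intro w hw
      rw [Submodule.mem_dualCoannihilator] at hw
      rw [Submodule.mem_bot]
      ext i
      exact hw (E i) (Submodule.subset_span ⟨i, rfl⟩)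
    rw [this, Submodule.dualAnnihilator_bot]
  let b₀ := Module.Basis.ofSpan hspan
  have : Finite _ := Module.Finite.finite_basis b₀
  obtain ⟨d, ⟨e⟩⟩ := Finite.exists_equiv_fin
    ((linearIndepOn_empty K (id : Dual K V → Dual K V)).extend (Set.empty_subset (Set.range E)))
  let b : Basis (Fin d) K (Dual K V) := b₀.reindex e
  have hb : ∀ i, b i ∈ Set.range E := by
    intro i
    apply Module.Basis.ofSpan_subset hspan
    exact ⟨e.symm i, by simp [b, b₀]⟩
  choose t ht using hb
  let v : Fin d → V := fun i => (evalEquiv K V).symm (b.dualBasis i)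
  have hv : ∀ i (φ : Dual K V), φ (v i) = b.dualBasis i φ := by
    intro i φ
    exact Module.apply_evalEquiv_symm_apply (R := K) (M := V) φ (b.dualBasis i)
  refine ⟨d, t, v, ?_, ?_⟩
  · intro i j
    rw [← hE, ht j, hv, Basis.dualBasis_apply_self]
    simp [eq_comm]
  · intro w
    rw [← sub_eq_zero, ← Module.forall_dual_apply_eq_zero_iff K]
    intro φ
    have h1 : ∀ j, b j (w - ∑ i, (w : ι → K) (t i) • v i) = 0 := by
      intro j
      rw [map_sub, map_sum]
      simp only [map_smul, hv, Basis.dualBasis_apply_self, smul_eq_mul, mul_ite, mul_one, mul_zero]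
      rw [← ht j, hE]
      simp
    have h2 : φ = ∑ j, b.repr φ j • b j := (b.sum_repr φ).symm
    rw [h2, LinearMap.sum_apply]
    refine Finset.sum_eq_zero fun j _ => ?_
    rw [LinearMap.smul_apply, h1, smul_zero]

/-- **Galois descent**: a finite-dimensional space of complex sequences stable under `Aut(ℂ)` is
spanned by its rational elements. -/
theorem span_rational_of_stable {ι : Type*} (V : Submodule ℂ (ι → ℂ)) [FiniteDimensional ℂ V]
    (hV : ∀ σ : ℂ ≃+* ℂ, ∀ v ∈ V, (fun n => σ (v n)) ∈ V) :
    Submodule.span ℂ {v | v ∈ V ∧ ∀ n, ∃ r : ℚ, v n = (r : ℂ)} = V := by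
  obtain ⟨d, t, v, hv, hw⟩ := exists_coordinates V
  have hrat : ∀ i n, ∃ r : ℚ, (v i : ι → ℂ) n = (r : ℂ) := by
    intro i n
    obtain ⟨r, hr⟩ := mem_range_of_forall_aut ((v i : ι → ℂ) n) (fun σ => by
      let w : V := ⟨fun n => σ ((v i : ι → ℂ) n), hV σ _ (v i).2⟩
      have h1 : w = v i := by
        rw [hw w]
        have h2 : ∀ j, (w : ι → ℂ) (t j) = if i = j then 1 else 0 := by
          intro j
          change σ ((v i : ι → ℂ) (t j)) = _
          rw [hv]
          split_ifs <;> simp
        simp [h2]
      exact congrFun (congrArg Subtype.val h1) n)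
    exact ⟨r, hr.symm⟩
  apply le_antisymm
  · rw [Submodule.span_le]
    rintro w ⟨hw, -⟩
    exact hw
  · intro w hwV
    have h := congrArg Subtype.val (hw ⟨w, hwV⟩)
    rw [Submodule.coe_sum] at h
    change w = _ at h
    rw [h]
    refine Submodule.sum_mem _ fun i _ => ?_
    rw [Submodule.coe_smul]
    exact Submodule.smul_mem _ _ (Submodule.subset_span ⟨(v i).2, hrat i⟩)

end Fermat.Agent.IntStr
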